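import Mathlib

set_option autoImplicit false

/-!
# GP / Flat / ConnEt : Lemma F in algebra form

`B` a commutative ring, `p ≥ 3` a prime which is a non-zero-divisor of `B` and lies in the
Jacobson radical (in the form: `1 + p s` is a unit for all `s`).  If `(1 + p t) ^ p = 1` then
`t = 0`.  Typical `B`: a finite torsion-free algebra over a local ring of residue characteristic
`p` (see `isUnit_one_add_smul`).
-/

namespace Fermat.Agent.GP.Flat.ConnEt

open IsLocalRing Finset

/-- In a finite algebra over a local ring, `1 + c • s` is a unit for `c` in the maximal ideal. -/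
theorem isUnit_one_add_smul {A B : Type*} [CommRing A] [IsLocalRing A] [CommRing B] [Algebra A B]
    [Module.Finite A B] {c : A} (hc : c ∈ maximalIdeal A) (s : B) : IsUnit (1 + c • s) := by
  set u : B := 1 + c • s with hu
  -- the ideal generated by `u`, as an `A`-submodule
  let N' : Submodule A B := (Ideal.span {u}).restrictScalars A
  have hle : (⊤ : Submodule A B) ≤ N' ⊔ maximalIdeal A • (⊤ : Submodule A B) := by
    intro x _
    have hx : x = u * x + (-c) • (s * x) := by
      rw [hu]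
      simp only [neg_smul, smul_mul_assoc, add_mul, one_mul]
      ring
    rw [hx]
    refine Submodule.add_mem_sup ?_ ?_
    · exact Ideal.mul_mem_right _ _ (Ideal.subset_span rfl)
    · exact Submodule.smul_mem_smul (neg_mem hc) Submodule.mem_top
  have htop : (⊤ : Submodule A B) ≤ N' :=
    Submodule.le_of_le_smul_of_le_jacobson_bot Module.Finite.fg_top
      (IsLocalRing.maximalIdeal_le_jacobson ⊥) hle
  have h1 : (1 : B) ∈ Ideal.span {u} := htop (Submodule.mem_top : (1 : B) ∈ ⊤)
  obtain ⟨v, hv⟩ := Ideal.mem_span_singleton'.1 h1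
  exact IsUnit.of_mul_eq_one v (by rw [mul_comm]; exact hv)

/-- The binomial expansion `(1 + x) ^ p = 1 + x ^ p + p x (1 + x r)`. -/
theorem exists_one_add_pow_prime_eq {B : Type*} [CommRing B] {p : ℕ} (hp : p.Prime) (x : B) :
    ∃ r : B, (1 + x) ^ p = 1 + x ^ p + p * x * (1 + x * r) := by
  have h := add_pow_prime_eq hp x (1 : B)
  have h2 : 2 ≤ p := hp.two_le
  have hIoo : Ioo 0 p = insert 1 (Ioo 1 p) := by
    ext k
    simp only [mem_Ioo, mem_insert]
    omega
  have hnot : (1 : ℕ) ∉ Ioo 1 p := by simp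
  refine ⟨∑ k ∈ Ioo 1 p, x ^ (k - 2) * ((p.choose k / p : ℕ) : B), ?_⟩
  rw [add_comm 1 x, h, hIoo, sum_insert hnot]
  have hc1 : p.choose 1 / p = 1 := by rw [Nat.choose_one_right, Nat.div_self hp.pos]
  have hsum : ∑ k ∈ Ioo 1 p, x ^ (k - 1) * (1 : B) ^ (p - k - 1) * ((p.choose k / p : ℕ) : B) =
      x * ∑ k ∈ Ioo 1 p, x ^ (k - 2) * ((p.choose k / p : ℕ) : B) := by
    rw [mul_sum]
    refine sum_congr rfl fun k hk => ?_
    rw [mem_Ioo] at hk
    have : k - 1 = (k - 2) + 1 := by omega
    rw [this, pow_succ, one_pow, mul_one]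
    ring
  rw [hsum, hc1]
  simp only [Nat.sub_self, pow_zero, one_pow, mul_one, Nat.cast_one]
  ring

/-- **Lemma F, algebra form.** -/
theorem eq_zero_of_one_add_mul_pow_eq_one {B : Type*} [CommRing B] {p : ℕ} (hp : p.Prime)
    (hp3 : 3 ≤ p) (hnzd : ∀ x : B, (p : B) * x = 0 → x = 0)
    (hunit : ∀ s : B, IsUnit (1 + (p : B) * s)) {t : B} (ht : (1 + (p : B) * t) ^ p = 1) :
    t = 0 := by
  obtain ⟨r, hr⟩ := exists_one_add_pow_prime_eq hp ((p : B) * t)
  rw [ht] at hr
  -- `0 = p² t (1 + p s)`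
  have hpow : ((p : B) * t) ^ p = (p : B) * ((p : B) * t) * ((p : B) * ((p : B) ^ (p - 3) * t ^ (p - 1))) := by
    have h1 : p = (p - 3) + 3 := by omega
    have h2 : p = (p - 1) + 1 := by omega
    calc ((p : B) * t) ^ p = (p : B) ^ p * t ^ p := mul_pow _ _ _
      _ = (p : B) ^ ((p - 3) + 3) * t ^ ((p - 1) + 1) := by rw [← h1, ← h2]
      _ = _ := by rw [pow_add, pow_succ t]; ring
  have hkey : (p : B) * ((p : B) * (t * (1 + (p : B) * ((p : B) ^ (p - 3) * t ^ (p - 1) + t * r)))) = 0 := by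
    have : (1 : B) = 1 + ((p : B) * t) ^ p + p * ((p : B) * t) * (1 + (p : B) * t * r) := hr
    rw [hpow] at this
    linear_combination -this
  have h1 := hnzd _ (hnzd _ hkey)
  exact ((hunit _).mul_left_eq_zero).1 h1

end Fermat.Agent.GP.Flat.ConnEt
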