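import Mathlib

set_option autoImplicit false

/-!
# GP / Flat / ConnEt : a rationality lemma for lattices over a PID

`R₀` a PID with fraction field `K₀ ⊂ K`.  Let `E` be a matrix over `K₀`, `C ⊂ K` an additive
subgroup stable under `R₀` with `C ∩ K₀ ⊂ ϖ R₀`.  If `w ∈ Cⁿ` and `E w` is `K₀`-rational, then
`E w = E (ϖ w')` for some `w' ∈ R₀ⁿ`.

(The lattice `𝔅 = E (R₀ⁿ)` is free; an `R₀`-basis of it is a `K`-basis of its `K`-span, so the
coordinates of `E w` are at the same time in `C` and in `K₀`.)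
-/

namespace Fermat.Agent.GP.Flat.ConnEt

open Matrix

section

variable {R₀ K₀ K : Type*} [CommRing R₀] [IsDomain R₀] [IsPrincipalIdealRing R₀]
  [Field K₀] [Algebra R₀ K₀] [IsFractionRing R₀ K₀] [Field K] [Algebra K₀ K]

theorem exists_integral_preimage {n n' : ℕ} (E : Matrix (Fin n') (Fin n) K₀) (C : AddSubgroup K)
    (hCs : ∀ (r : R₀) (c : K), c ∈ C → algebraMap K₀ K (algebraMap R₀ K₀ r) * c ∈ C)
    (ϖ : R₀) (hCϖ : ∀ x : K₀, algebraMap K₀ K x ∈ C → ∃ r : R₀, x = algebraMap R₀ K₀ (ϖ * r))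
    (w : Fin n → K) (hw : ∀ i, w i ∈ C) (z : Fin n' → K₀)
    (hz : (E.map (algebraMap K₀ K)).mulVec w = fun i => algebraMap K₀ K (z i)) :
    ∃ w' : Fin n → R₀, z = E.mulVec (fun j => algebraMap R₀ K₀ (ϖ * w' j)) := by
  classical
  -- the lattice `𝔅 = E (R₀ⁿ)`
  let φ : (Fin n → R₀) →ₗ[R₀] (Fin n' → K₀) :=
    (E.mulVecLin.restrictScalars R₀).comp ((Algebra.linearMap R₀ K₀).compLeft (Fin n))
  have hφ : ∀ x : Fin n → R₀, φ x = E.mulVec (fun j => algebraMap R₀ K₀ (x j)) := fun x => rfl
  let 𝔅 : Submodule R₀ (Fin n' → K₀) := LinearMap.range φ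
  have : Module.IsTorsionFree R₀ K₀ := ⟨fun r hr x y hxy => by
    have hr0 : algebraMap R₀ K₀ r ≠ 0 := by
      rw [Ne, map_eq_zero_iff _ (IsFractionRing.injective R₀ K₀)]
      exact hr.ne_zero
    simp only [Algebra.smul_def] at hxy
    exact mul_left_cancel₀ hr0 hxy⟩
  have : Module.Finite R₀ 𝔅 := Module.Finite.range φ
  obtain ⟨m, β⟩ := Module.basisOfFiniteTypeTorsionFree' (R := R₀) (M := 𝔅)
  -- preimages of the basis vectors
  have ha : ∀ j : Fin m, ∃ a : Fin n → R₀, φ a = (β j : Fin n' → K₀) := fun j => (β j).2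
  choose a ha using ha
  -- the matrices
  let Bm : Matrix (Fin n') (Fin m) K₀ := fun i j => (β j : Fin n' → K₀) i
  let Mm : Matrix (Fin m) (Fin n) R₀ :=
    fun j i => β.repr ⟨φ (Pi.single i 1), LinearMap.mem_range_self φ _⟩ j
  let Am : Matrix (Fin n) (Fin m) R₀ := fun i j => a j i
  -- (1) `E = Bm * Mm`
  have h1 : E = Bm * Mm.map (algebraMap R₀ K₀) := by
    ext i' i
    have hsum := β.sum_repr ⟨φ (Pi.single i 1), LinearMap.mem_range_self φ _⟩
    have hval := congrArg (fun x : 𝔅 => (x : Fin n' → K₀) i') hsum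
    simp only [Submodule.coe_sum, Submodule.coe_smul, Finset.sum_apply, Pi.smul_apply] at hval
    have hE : φ (Pi.single i 1) i' = E i' i := by
      rw [hφ]
      simp [Matrix.mulVec, dotProduct, Pi.single_apply]
    rw [hE] at hval
    rw [← hval, Matrix.mul_apply]
    refine Finset.sum_congr rfl fun j _ => ?_
    rw [Algebra.smul_def, Matrix.map_apply, mul_comm]
  -- (2) `Bm = E * Am`
  have h2 : Bm = E * Am.map (algebraMap R₀ K₀) := by
    ext i' j
    have := congrFun (ha j) i'
    rw [hφ] at this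
    rw [Matrix.mul_apply]
    simp only [Matrix.mulVec, dotProduct] at this
    exact this.symm
  -- (3) a left inverse of `Bm` over `K₀`
  have hli : LinearIndependent K₀ (fun j => (β j : Fin n' → K₀)) := by
    have h0 : LinearIndependent R₀ (fun j => (β j : Fin n' → K₀)) :=
      β.linearIndependent.map' 𝔅.subtype (Submodule.ker_subtype 𝔅)
    exact h0.localization K₀ (nonZeroDivisors R₀)
  have hinj : Function.Injective (Bm.mulVecLin) := by
    rw [← LinearMap.ker_eq_bot, LinearMap.ker_eq_bot']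
    intro c hc
    have h := Fintype.linearIndependent_iff.1 hli c (by
      have : Bm.mulVec c = 0 := hc
      ext i'
      have := congrFun this i'
      simp only [Matrix.mulVec, dotProduct, Pi.zero_apply] at this
      simp only [Finset.sum_apply, Pi.smul_apply, smul_eq_mul, Pi.zero_apply]
      rw [← this]
      exact Finset.sum_congr rfl fun j _ => mul_comm _ _)
    exact funext h
  obtain ⟨g, hg⟩ := LinearMap.exists_leftInverse_of_injective Bm.mulVecLin
    (LinearMap.ker_eq_bot.2 hinj)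
  let G : Matrix (Fin m) (Fin n') K₀ := LinearMap.toMatrix' g
  have h3 : G * Bm = 1 := by
    have : LinearMap.toMatrix' (g.comp Bm.mulVecLin) = 1 := by rw [hg, LinearMap.toMatrix'_id]
    rwa [LinearMap.toMatrix'_comp, ← Matrix.toLin'_apply', LinearMap.toMatrix'_toLin'] at this
  -- over `K`
  set ι := algebraMap K₀ K with hι
  have hιinj : Function.Injective ι := (algebraMap K₀ K).injective
  set ζ : Fin m → K := ((Mm.map (algebraMap R₀ K₀)).map ι).mulVec w with hζ
  have hζC : ∀ j, ζ j ∈ C := by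
    intro j
    rw [hζ]
    simp only [Matrix.mulVec, dotProduct, Matrix.map_apply]
    exact sum_mem fun i _ => hCs _ _ (hw i)
  have hEι : E.map ι = Bm.map ι * (Mm.map (algebraMap R₀ K₀)).map ι := by
    rw [← Matrix.map_mul, ← h1]
  have hGζ : (G.map ι).mulVec (fun i => ι (z i)) = ζ := by
    rw [← hz, Matrix.mulVec_mulVec, hEι, ← Matrix.mul_assoc, ← Matrix.map_mul, h3,
      Matrix.map_one _ (map_zero ι) (map_one ι), Matrix.one_mul]
  have hζ0 : ∀ j, ζ j = ι (G.mulVec z j) := by
    intro j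
    rw [← hGζ]
    simp only [Matrix.mulVec, dotProduct, Matrix.map_apply, map_sum, map_mul]
  have hr : ∀ j, ∃ r : R₀, G.mulVec z j = algebraMap R₀ K₀ (ϖ * r) := fun j =>
    hCϖ _ (hζ0 j ▸ hζC j)
  choose r hr using hr
  refine ⟨fun i => ∑ j, a j i * r j, ?_⟩
  -- `z = Bm (G z)`
  have hz' : (fun i => ι (z i)) = (Bm.map ι).mulVec ζ := by
    rw [← hz, hEι, ← Matrix.mulVec_mulVec]
  have hzB : z = Bm.mulVec (G.mulVec z) := by
    ext i'
    apply hιinj
    have := congrFun hz' i'
    rw [this]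
    simp only [Matrix.mulVec, dotProduct, Matrix.map_apply, map_sum, map_mul]
    refine Finset.sum_congr rfl fun j _ => ?_
    rw [hζ0 j]
    simp only [Matrix.mulVec, dotProduct, map_sum, map_mul]
  rw [hzB, h2, ← Matrix.mulVec_mulVec]
  congr 1
  ext i
  simp only [Matrix.mulVec, dotProduct, Matrix.map_apply]
  rw [map_mul, map_sum, Finset.mul_sum]
  refine Finset.sum_congr rfl fun j _ => ?_
  have := hr j
  simp only [Matrix.mulVec, dotProduct] at this
  rw [this]
  simp only [map_mul, Am]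
  ring

end

end Fermat.Agent.GP.Flat.ConnEt
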