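import Mathlib
import Fermat.Agent.GP.Flat.ConnEt.LemmaFAlg
import Fermat.Agent.GP.Flat.ConnEt.Rational

set_option autoImplicit false

/-!
# GP / Flat / ConnEt : the abstract connected–étale lemma (CE)

`H` a cocommutative bialgebra, finite free over `Λ`; `K ⊃ A` a field with a valuation subring of
residue characteristic `p ≥ 3`; `K₀ ⊂ K` a subfield with a PID `R₀ ⊂ K₀ ∩ A` such that
`K₀ ∩ 𝔪_A ⊂ p R₀` ("`K₀` is unramified").  Let `N₁` be a finite group of `K`-points of `H`, all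
killed by `p`, and `f` a point killed by `p` which reduces to the identity modulo `𝔪_A`, such that
the coset sums `∑_{n ∈ N₁} n` and `∑_{n ∈ N₁} f n` are `K₀`-rational.  Then `f ∈ N₁`.
-/

namespace Fermat.Agent.GP.Flat.ConnEt

open Coalgebra WithConv

section Basics

variable {Λ : Type*} [CommRing Λ] {H : Type*} [CommRing H] [Bialgebra Λ H]

/-- A point as an element of the linear convolution ring. -/
def lin {M : Type*} [CommRing M] [Algebra Λ M] (f : WithConv (H →ₐ[Λ] M)) :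
    WithConv (H →ₗ[Λ] M) := toConv f.ofConv.toLinearMap

@[simp] theorem lin_apply {M : Type*} [CommRing M] [Algebra Λ M] (f : WithConv (H →ₐ[Λ] M))
    (h : H) : lin f h = f h := rfl

@[simp] theorem lin_one {M : Type*} [CommRing M] [Algebra Λ M] :
    lin (1 : WithConv (H →ₐ[Λ] M)) = 1 := rfl

@[simp] theorem lin_mul {M : Type*} [CommRing M] [Algebra Λ M] (f g : WithConv (H →ₐ[Λ] M)) :
    lin (f * g) = lin f * lin g := rfl

@[simp] theorem lin_pow {M : Type*} [CommRing M] [Algebra Λ M] (f : WithConv (H →ₐ[Λ] M))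
    (n : ℕ) : lin (f ^ n) = lin f ^ n := AlgHom.toLinearMap_convPow f n

theorem lin_injective {M : Type*} [CommRing M] [Algebra Λ M] :
    Function.Injective (lin : WithConv (H →ₐ[Λ] M) → WithConv (H →ₗ[Λ] M)) :=
  toConv_injective.comp <| AlgHom.toLinearMap_injective.comp ofConv_injective

/-- Post-composition with an algebra homomorphism, as a ring homomorphism of convolution
rings. -/
def mapConv {M M' : Type*} [CommRing M] [Algebra Λ M] [CommRing M'] [Algebra Λ M']
    (ψ : M →ₐ[Λ] M') : WithConv (H →ₗ[Λ] M) →+* WithConv (H →ₗ[Λ] M') where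
  toFun a := toConv (ψ.toLinearMap.comp a.ofConv)
  map_one' := by
    apply WithConv.ext
    ext h
    simp [LinearMap.convOne_def]
  map_mul' a b := by
    apply WithConv.ext
    rw [ofConv_toConv, LinearMap.algHom_comp_convMul_distrib]
  map_zero' := by
    apply WithConv.ext
    simp
  map_add' a b := by
    apply WithConv.ext
    simp [LinearMap.comp_add]

@[simp] theorem mapConv_apply {M M' : Type*} [CommRing M] [Algebra Λ M] [CommRing M']
    [Algebra Λ M'] (ψ : M →ₐ[Λ] M') (a : WithConv (H →ₗ[Λ] M)) (h : H) :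
    mapConv ψ a h = ψ (a h) := rfl

theorem mapConv_injective {M M' : Type*} [CommRing M] [Algebra Λ M] [CommRing M']
    [Algebra Λ M'] (ψ : M →ₐ[Λ] M') (hψ : Function.Injective ψ) :
    Function.Injective (mapConv (H := H) ψ) := by
  intro a b hab
  apply WithConv.ext
  ext h
  apply hψ
  exact congrArg (fun c : WithConv (H →ₗ[Λ] M') => c h) hab

end Basics

section Coordinates

variable {Λ : Type*} [CommRing Λ] {H : Type*} [CommRing H] [Bialgebra Λ H]
variable {n : ℕ} (b : Module.Basis (Fin n) Λ H)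

/-- The dual basis functionals with values in a `Λ`-algebra `M`. -/
noncomputable def dualFn (M : Type*) [CommRing M] [Algebra Λ M] (k : Fin n) : WithConv (H →ₗ[Λ] M) :=
  toConv ((Algebra.linearMap Λ M).comp (b.coord k))

theorem dualFn_apply (M : Type*) [CommRing M] [Algebra Λ M] (k : Fin n) (h : H) :
    dualFn b M k h = algebraMap Λ M (b.repr h k) := rfl

theorem dualFn_basis (M : Type*) [CommRing M] [Algebra Λ M] (k i : Fin n) :
    dualFn b M k (b i) = if i = k then 1 else 0 := by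
  rw [dualFn_apply, Module.Basis.repr_self, Finsupp.single_apply]
  split_ifs <;> simp

theorem smul_conv_apply {M : Type*} [CommRing M] [Algebra Λ M] (c : M)
    (a : WithConv (H →ₗ[Λ] M)) (h : H) : (c • a) h = c * a h := rfl

theorem sum_conv_apply {M : Type*} [CommRing M] [Algebra Λ M] {ι : Type*} (s : Finset ι)
    (a : ι → WithConv (H →ₗ[Λ] M)) (h : H) : (∑ i ∈ s, a i) h = ∑ i ∈ s, a i h := by
  classical
  induction s using Finset.induction_on with
  | empty => rfl
  | insert i s hi ih =>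
    rw [Finset.sum_insert hi, Finset.sum_insert hi, ← ih]
    rfl

theorem conv_ext_basis {M : Type*} [CommRing M] [Algebra Λ M] {a a' : WithConv (H →ₗ[Λ] M)}
    (h : ∀ i, a (b i) = a' (b i)) : a = a' := by
  apply WithConv.ext
  exact b.ext h

theorem eq_sum_dualFn {M : Type*} [CommRing M] [Algebra Λ M] (a : WithConv (H →ₗ[Λ] M)) :
    a = ∑ k, a (b k) • dualFn b M k := by
  apply conv_ext_basis b
  intro i
  rw [sum_conv_apply]
  simp only [smul_conv_apply, dualFn_basis, mul_ite, mul_one, mul_zero]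
  rw [Finset.sum_ite_eq Finset.univ i]
  simp

theorem mapConv_dualFn {M M' : Type*} [CommRing M] [Algebra Λ M] [CommRing M'] [Algebra Λ M']
    (ψ : M →ₐ[Λ] M') (k : Fin n) : mapConv ψ (dualFn b M k) = dualFn b M' k := by
  apply WithConv.ext
  ext h
  show ψ (algebraMap Λ M (b.repr h k)) = algebraMap Λ M' (b.repr h k)
  rw [ψ.commutes]

theorem mapConv_smul {M M' : Type*} [CommRing M] [Algebra Λ M] [CommRing M'] [Algebra Λ M']
    (ψ : M →ₐ[Λ] M') (c : M) (a : WithConv (H →ₗ[Λ] M)) :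
    mapConv ψ (c • a) = ψ c • mapConv ψ a := by
  apply WithConv.ext
  ext h
  show ψ (c * a h) = ψ c * ψ (a h)
  rw [map_mul]


/-- The element of the convolution ring with prescribed values on the basis. -/
noncomputable def ofCoords (M : Type*) [CommRing M] [Algebra Λ M] (c : Fin n → M) :
    WithConv (H →ₗ[Λ] M) := ∑ k, c k • dualFn b M k

theorem ofCoords_basis (M : Type*) [CommRing M] [Algebra Λ M] (c : Fin n → M) (i : Fin n) :
    ofCoords b M c (b i) = c i := by
  rw [ofCoords, sum_conv_apply]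
  simp only [smul_conv_apply, dualFn_basis, mul_ite, mul_one, mul_zero]
  rw [Finset.sum_ite_eq Finset.univ i]
  simp

theorem ofCoords_coords {M : Type*} [CommRing M] [Algebra Λ M] (a : WithConv (H →ₗ[Λ] M)) :
    ofCoords b M (fun k => a (b k)) = a := (eq_sum_dualFn b a).symm

theorem mapConv_ofCoords {M M' : Type*} [CommRing M] [Algebra Λ M] [CommRing M'] [Algebra Λ M']
    (ψ : M →ₐ[Λ] M') (c : Fin n → M) :
    mapConv ψ (ofCoords b M c) = ofCoords b M' (fun k => ψ (c k)) := by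
  rw [ofCoords, ofCoords, map_sum]
  refine Finset.sum_congr rfl fun k _ => ?_
  rw [mapConv_smul, mapConv_dualFn]

/-- Multiplication by a "rational" element in coordinates. -/
theorem mapConv_mul_ofCoords_basis [Coalgebra.IsCocomm Λ H] {M M' : Type*} [CommRing M]
    [Algebra Λ M] [CommRing M'] [Algebra Λ M'] (ψ : M →ₐ[Λ] M') (e₀ : WithConv (H →ₗ[Λ] M))
    (c : Fin n → M') (i : Fin n) :
    (mapConv ψ e₀ * ofCoords b M' c) (b i) = ∑ k, ψ ((e₀ * dualFn b M k) (b i)) * c k := by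
  rw [ofCoords, Finset.mul_sum, sum_conv_apply]
  refine Finset.sum_congr rfl fun k _ => ?_
  rw [mul_smul_comm, smul_conv_apply, ← mapConv_dualFn b ψ k, ← map_mul, mapConv_apply, mul_comm]

end Coordinates

section Core

variable {Λ : Type*} [CommRing Λ] {H : Type*} [CommRing H] [Bialgebra Λ H]
  [Coalgebra.IsCocomm Λ H]
variable {n : ℕ} (b : Module.Basis (Fin n) Λ H)
variable {K : Type*} [Field K] [CharZero K] [Algebra Λ K] (A : ValuationSubring K)
  [Algebra Λ A] [IsScalarTower Λ A K]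
variable {K₀ : Type*} [Field K₀] [Algebra Λ K₀] [Algebra K₀ K] [IsScalarTower Λ K₀ K]
variable {R₀ : Type*} [CommRing R₀] [IsDomain R₀] [IsPrincipalIdealRing R₀] [Algebra R₀ K₀]
  [IsFractionRing R₀ K₀]

omit [CharZero K] in
theorem mul_mem_nonunits {x c : K} (hx : x ∈ A) (hc : c ∈ A.nonunits) : x * c ∈ A.nonunits := by
  obtain ⟨hcA, hcm⟩ := A.mem_nonunits_iff_exists_mem_maximalIdeal.1 hc
  have := Ideal.mul_mem_left (IsLocalRing.maximalIdeal A) (⟨x, hx⟩ : A) hcm
  exact A.coe_mem_nonunits_iff.2 this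

omit [CharZero K] in
theorem algebraMap_mem_of_tower (c : Λ) : algebraMap Λ K c ∈ A := by
  rw [IsScalarTower.algebraMap_apply Λ A K]
  exact (algebraMap Λ A c).2

omit [Coalgebra.IsCocomm Λ H] in
include b in
/-- Finite generation of the integral convolution ring. -/
theorem finite_conv (M : Type*) [CommRing M] [Algebra Λ M] :
    Module.Finite M (WithConv (H →ₗ[Λ] M)) := by
  refine Module.Finite.of_surjective (Fintype.linearCombination M (dualFn b M)) ?_
  intro a
  refine ⟨fun k => a (b k), ?_⟩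
  rw [Fintype.linearCombination_apply]
  exact (eq_sum_dualFn b a).symm

omit [Coalgebra.IsCocomm Λ H] in
theorem natCast_mul_apply {M : Type*} [CommRing M] [Algebra Λ M] (m : ℕ)
    (X : WithConv (H →ₗ[Λ] M)) (h : H) :
    ((m : WithConv (H →ₗ[Λ] M)) * X) h = (m : M) * X h := by
  rw [← nsmul_eq_mul, ← nsmul_eq_mul]
  rfl

omit [Coalgebra.IsCocomm Λ H] [CharZero K] in
theorem eq_zero_of_natCast_mul_eq_zero {m : ℕ} (hm : (m : K) ≠ 0) {X : WithConv (H →ₗ[Λ] K)}
    (h : (m : WithConv (H →ₗ[Λ] K)) * X = 0) : X = 0 := by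
  apply WithConv.ext
  ext x
  have := congrArg (fun c : WithConv (H →ₗ[Λ] K) => c x) h
  simp only [natCast_mul_apply] at this
  exact (mul_eq_zero.1 this).resolve_left hm

/-- **Core of (CE).**  `e` a `K₀`-rational idempotent of the convolution algebra, `F` a `p`-torsion
unit congruent to `1` modulo `𝔪_A` with `e (F - 1)` rational, `K₀` unramified: then
`e (F - 1) = 0`. -/
theorem mul_sub_one_eq_zero {p : ℕ} (hp : p.Prime) (hp3 : 3 ≤ p) (hpA : (p : K) ∈ A.nonunits)
    (hR₀A : ∀ r : R₀, algebraMap K₀ K (algebraMap R₀ K₀ r) ∈ A)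
    (hunr : ∀ x : K₀, algebraMap K₀ K x ∈ A.nonunits →
      ∃ r : R₀, x = algebraMap R₀ K₀ ((p : R₀) * r))
    (e₀ z₀ : WithConv (H →ₗ[Λ] K₀)) (F : WithConv (H →ₗ[Λ] K))
    (he : mapConv (IsScalarTower.toAlgHom Λ K₀ K) e₀ * mapConv (IsScalarTower.toAlgHom Λ K₀ K) e₀ =
      mapConv (IsScalarTower.toAlgHom Λ K₀ K) e₀)
    (hFp : F ^ p = 1)
    (hFm : ∀ k, F (b k) - algebraMap Λ K (Coalgebra.counit (b k)) ∈ A.nonunits)
    (hz : mapConv (IsScalarTower.toAlgHom Λ K₀ K) e₀ * (F - 1) =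
      mapConv (IsScalarTower.toAlgHom Λ K₀ K) z₀) :
    mapConv (IsScalarTower.toAlgHom Λ K₀ K) e₀ * (F - 1) = 0 := by
  classical
  set ι₀ : K₀ →ₐ[Λ] K := IsScalarTower.toAlgHom Λ K₀ K with hι₀
  set ιA : A →ₐ[Λ] K := IsScalarTower.toAlgHom Λ A K with hιA
  set e := mapConv (H := H) ι₀ e₀ with he_def
  have hp0 : (p : K) ≠ 0 := Nat.cast_ne_zero.2 hp.ne_zero
  -- coordinates of `F - 1`
  set w : Fin n → K := fun k => (F - 1) (b k) with hw
  have hwm : ∀ k, w k ∈ A.nonunits.toAddSubgroup := fun k => hFm k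
  have hFw : F - 1 = ofCoords b K w := (ofCoords_coords b (F - 1)).symm
  -- the matrix of multiplication by `e`
  set E : Matrix (Fin n) (Fin n) K₀ := fun i k => (e₀ * dualFn b K₀ k) (b i) with hE
  have hmulE : ∀ (c : Fin n → K) (i : Fin n),
      (e * ofCoords b K c) (b i) = ((E.map ι₀).mulVec c) i := by
    intro c i
    rw [he_def, mapConv_mul_ofCoords_basis]
    rfl
  -- the rationality lemma
  obtain ⟨w', hw'⟩ := exists_integral_preimage (R₀ := R₀) E A.nonunits.toAddSubgroup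
    (fun r c hc => mul_mem_nonunits A (hR₀A r) hc) (p : R₀) (fun x hx => hunr x hx) w hwm
    (fun i => z₀ (b i)) (by
      funext i
      have h := hmulE w i
      rw [← hFw, hz] at h
      exact h.symm)
  -- the integral elements
  set tA : WithConv (H →ₗ[Λ] A) :=
    ofCoords b A (fun k => ⟨algebraMap K₀ K (algebraMap R₀ K₀ (w' k)), hR₀A _⟩) with htA_def
  have hFA : ∀ k, F (b k) ∈ A := by
    intro k
    have h1 := A.nonunits_subset (hFm k)
    have h2 := algebraMap_mem_of_tower A (Coalgebra.counit (R := Λ) (b k))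
    have := A.add_mem _ _ h1 h2
    rwa [sub_add_cancel] at this
  set FA : WithConv (H →ₗ[Λ] A) := ofCoords b A (fun k => ⟨F (b k), hFA k⟩) with hFA_def
  have hFA' : mapConv ιA FA = F := by
    rw [hFA_def, mapConv_ofCoords]
    exact ofCoords_coords b F
  have htA : e * (F - 1) = (p : WithConv (H →ₗ[Λ] K)) * (e * mapConv ιA tA) := by
    apply conv_ext_basis b
    intro i
    rw [natCast_mul_apply, htA_def, mapConv_ofCoords, hmulE, hz, mapConv_apply]
    have := congrFun hw' i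
    rw [this]
    simp only [Matrix.mulVec, dotProduct, Matrix.map_apply, map_sum, map_mul, map_natCast,
      Finset.mul_sum]
    refine Finset.sum_congr rfl fun k _ => ?_
    show ι₀ (E i k) * ((p : K) * ι₀ (algebraMap R₀ K₀ (w' k))) =
      (p : K) * (ι₀ (E i k) * algebraMap K₀ K (algebraMap R₀ K₀ (w' k)))
    rw [show ι₀ (algebraMap R₀ K₀ (w' k)) = algebraMap K₀ K (algebraMap R₀ K₀ (w' k)) from rfl]
    ring
  -- the quotient ring
  set J : Ideal (WithConv (H →ₗ[Λ] A)) := Ideal.comap (mapConv ιA) (Ideal.span {1 - e}) with hJ_def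
  have hJ : ∀ a, a ∈ J ↔ e * mapConv ιA a = 0 := by
    intro a
    rw [hJ_def, Ideal.mem_comap, Ideal.mem_span_singleton']
    constructor
    · rintro ⟨y, hy⟩
      rw [← hy]
      calc e * (y * (1 - e)) = y * (e - e * e) := by ring
        _ = 0 := by rw [he, sub_self, mul_zero]
    · intro h
      exact ⟨mapConv ιA a, by rw [mul_sub, mul_one, mul_comm _ e, h, sub_zero]⟩
  have : Module.Finite A (WithConv (H →ₗ[Λ] A)) := finite_conv b A
  have : Module.Finite A (WithConv (H →ₗ[Λ] A) ⧸ J) :=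
    Module.Finite.of_surjective (Ideal.Quotient.mkₐ A J).toLinearMap
      (Ideal.Quotient.mkₐ_surjective A J)
  have hnzd : ∀ x : WithConv (H →ₗ[Λ] A) ⧸ J, (p : WithConv (H →ₗ[Λ] A) ⧸ J) * x = 0 → x = 0 := by
    intro x hx
    obtain ⟨a, rfl⟩ := Ideal.Quotient.mk_surjective x
    rw [← map_natCast (Ideal.Quotient.mk J), ← map_mul, Ideal.Quotient.eq_zero_iff_mem, hJ,
      map_mul, map_natCast, mul_left_comm] at hx
    rw [Ideal.Quotient.eq_zero_iff_mem, hJ]
    exact eq_zero_of_natCast_mul_eq_zero hp0 hx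
  have hunit : ∀ s : WithConv (H →ₗ[Λ] A) ⧸ J,
      IsUnit (1 + (p : WithConv (H →ₗ[Λ] A) ⧸ J) * s) := by
    intro s
    have hpm : ((p : ℕ) : A) ∈ IsLocalRing.maximalIdeal A := by
      obtain ⟨h1, h2⟩ := A.mem_nonunits_iff_exists_mem_maximalIdeal.1 hpA
      have : (⟨(p : K), h1⟩ : A) = ((p : ℕ) : A) := Subtype.ext (by simp)
      rwa [this] at h2
    have := isUnit_one_add_smul hpm s
    rwa [Nat.cast_smul_eq_nsmul, nsmul_eq_mul] at this
  have h1 : Ideal.Quotient.mk J FA = 1 + (p : WithConv (H →ₗ[Λ] A) ⧸ J) * Ideal.Quotient.mk J tA := by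
    rw [← map_natCast (Ideal.Quotient.mk J), ← map_mul, ← map_one (Ideal.Quotient.mk J), ← map_add,
      Ideal.Quotient.eq, hJ, map_sub, map_add, map_mul, map_one, map_natCast, hFA']
    calc e * (F - (1 + (p : WithConv (H →ₗ[Λ] K)) * mapConv ιA tA))
        = e * (F - 1) - (p : WithConv (H →ₗ[Λ] K)) * (e * mapConv ιA tA) := by ring
      _ = 0 := by rw [htA, sub_self]
  have hFAp : FA ^ p = 1 := by
    apply mapConv_injective ιA (fun x y hxy => Subtype.ext hxy)
    rw [map_pow, hFA', hFp, map_one]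
  have ht : (1 + (p : WithConv (H →ₗ[Λ] A) ⧸ J) * Ideal.Quotient.mk J tA) ^ p = 1 := by
    rw [← h1, ← map_pow, hFAp, map_one]
  have h0 := eq_zero_of_one_add_mul_pow_eq_one (B := WithConv (H →ₗ[Λ] A) ⧸ J) hp hp3 hnzd hunit ht
  rw [Ideal.Quotient.eq_zero_iff_mem, hJ] at h0
  rw [htA, h0, mul_zero]

end Core

section Points

variable {Λ : Type*} [CommRing Λ] {H : Type*} [CommRing H] [Bialgebra Λ H]
  [Coalgebra.IsCocomm Λ H]
variable {K : Type*} [Field K] [Algebra Λ K]

omit [Coalgebra.IsCocomm Λ H] in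
/-- Dedekind: distinct points are linearly independent in the convolution algebra. -/
theorem linearIndependent_lin :
    LinearIndependent K (lin : WithConv (H →ₐ[Λ] K) → WithConv (H →ₗ[Λ] K)) := by
  have h := linearIndependent_algHom_toLinearMap Λ H K
  have h2 := h.map' (WithConv.linearEquiv K (H →ₗ[Λ] K)).symm.toLinearMap
    (LinearEquiv.ker _)
  exact h2.comp _ ofConv_injective

omit [Coalgebra.IsCocomm Λ H] in
/-- If two finite sums of points agree in the convolution algebra, the index sets agree. -/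
theorem mem_of_sum_lin_eq {T₁ T₂ : Finset (WithConv (H →ₐ[Λ] K))}
    (h : ∑ g ∈ T₁, lin g = ∑ g ∈ T₂, lin g) {f : WithConv (H →ₐ[Λ] K)} (hf : f ∈ T₁) :
    f ∈ T₂ := by
  classical
  have hli := linearIndependent_lin (Λ := Λ) (H := H) (K := K)
  have hinj : Function.Injective (Finsupp.linearCombination K
      (lin : WithConv (H →ₐ[Λ] K) → WithConv (H →ₗ[Λ] K))) := hli
  have key : ∀ T : Finset (WithConv (H →ₐ[Λ] K)),
      Finsupp.linearCombination K (lin : WithConv (H →ₐ[Λ] K) → WithConv (H →ₗ[Λ] K))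
        (∑ g ∈ T, Finsupp.single g (1 : K)) = ∑ g ∈ T, lin g := by
    intro T
    rw [map_sum]
    refine Finset.sum_congr rfl fun g _ => ?_
    rw [Finsupp.linearCombination_single, one_smul]
  have heq : (∑ g ∈ T₁, Finsupp.single g (1 : K)) = ∑ g ∈ T₂, Finsupp.single g (1 : K) :=
    hinj (by rw [key, key, h])
  have hval := DFunLike.congr_fun heq f
  simp only [Finsupp.finsetSum_apply, Finsupp.single_apply, Finset.sum_ite_eq', hf,
    if_true] at hval
  by_contra hne
  rw [if_neg hne] at hval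
  exact one_ne_zero hval

/-- Translation invariance of the sum over a finite group of points. -/
theorem lin_mul_sum_eq (N₁ : Finset (WithConv (H →ₐ[Λ] K)))
    (hmul : ∀ n ∈ N₁, ∀ m ∈ N₁, n * m ∈ N₁) {n n' : WithConv (H →ₐ[Λ] K)} (hn : n ∈ N₁)
    (hn' : n' ∈ N₁) (hnn' : n * n' = 1) :
    lin n * ∑ m ∈ N₁, lin m = ∑ m ∈ N₁, lin m := by
  rw [Finset.mul_sum]
  refine Finset.sum_nbij' (fun m => n * m) (fun m => n' * m) (fun m hm => hmul n hn m hm)
    (fun m hm => hmul n' hn' m hm) (fun m _ => ?_) (fun m _ => ?_) (fun m _ => ?_)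
  · rw [← mul_assoc, mul_comm n' n, hnn', one_mul]
  · rw [← mul_assoc, hnn', one_mul]
  · rw [lin_mul]

end Points

section Main

variable {Λ : Type*} [CommRing Λ] {H : Type*} [CommRing H] [Bialgebra Λ H]
  [Coalgebra.IsCocomm Λ H]
variable {n : ℕ} (b : Module.Basis (Fin n) Λ H)
variable {K : Type*} [Field K] [CharZero K] [Algebra Λ K] (A : ValuationSubring K)
  [Algebra Λ A] [IsScalarTower Λ A K]
variable {K₀ : Type*} [Field K₀] [Algebra Λ K₀] [Algebra K₀ K] [IsScalarTower Λ K₀ K]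
variable {R₀ : Type*} [CommRing R₀] [IsDomain R₀] [IsPrincipalIdealRing R₀] [Algebra R₀ K₀]
  [IsFractionRing R₀ K₀]

/-- **(CE), abstract form.**  `N₁` a finite group of `K`-points of `H`, `f` a point killed by
`p ≥ 3` and congruent to the unit section modulo `𝔪_A`.  If the two coset sums `∑_{m ∈ N₁} m` and
`∑_{m ∈ N₁} f m` are rational over an unramified subfield `K₀`, then `f ∈ N₁`. -/
theorem mem_of_rational_coset_sums {p : ℕ} (hp : p.Prime) (hp3 : 3 ≤ p)
    (hpA : (p : K) ∈ A.nonunits)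
    (hR₀A : ∀ r : R₀, algebraMap K₀ K (algebraMap R₀ K₀ r) ∈ A)
    (hunr : ∀ x : K₀, algebraMap K₀ K x ∈ A.nonunits →
      ∃ r : R₀, x = algebraMap R₀ K₀ ((p : R₀) * r))
    (N₁ : Finset (WithConv (H →ₐ[Λ] K))) (h1 : 1 ∈ N₁)
    (hmul : ∀ m ∈ N₁, ∀ m' ∈ N₁, m * m' ∈ N₁) (hinv : ∀ m ∈ N₁, ∃ m' ∈ N₁, m * m' = 1)
    (f : WithConv (H →ₐ[Λ] K)) (hfp : f ^ p = 1)
    (hfm : ∀ k, f (b k) - algebraMap Λ K (Coalgebra.counit (b k)) ∈ A.nonunits)
    (S₁ S₂ : WithConv (H →ₗ[Λ] K₀))
    (hS₁ : mapConv (IsScalarTower.toAlgHom Λ K₀ K) S₁ = ∑ m ∈ N₁, lin m)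
    (hS₂ : mapConv (IsScalarTower.toAlgHom Λ K₀ K) S₂ = ∑ m ∈ N₁, lin (f * m)) :
    f ∈ N₁ := by
  classical
  set ι₀ : K₀ →ₐ[Λ] K := IsScalarTower.toAlgHom Λ K₀ K with hι₀
  set S : WithConv (H →ₗ[Λ] K) := ∑ m ∈ N₁, lin m with hS
  set F : WithConv (H →ₗ[Λ] K) := lin f with hF
  have hq : ((N₁.card : ℕ) : K) ≠ 0 :=
    Nat.cast_ne_zero.2 (Finset.card_ne_zero.2 ⟨1, h1⟩)
  have hq₀ : ((N₁.card : ℕ) : K₀) ≠ 0 := by
    intro h
    apply hq
    have := congrArg (algebraMap K₀ K) h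
    rwa [map_natCast, map_zero] at this
  have hι₀q : ι₀ (((N₁.card : ℕ) : K₀)⁻¹) = ((N₁.card : ℕ) : K)⁻¹ := by
    rw [map_inv₀, map_natCast]
  -- `S * S = #N₁ • S`
  have hSS : S * S = ((N₁.card : ℕ) : K) • S := by
    conv_lhs => rw [hS, Finset.sum_mul]
    rw [Finset.sum_congr rfl (fun m hm => by
      obtain ⟨m', hm', hmm'⟩ := hinv m hm
      exact lin_mul_sum_eq N₁ hmul hm hm' hmm')]
    rw [Finset.sum_const, ← hS, Nat.cast_smul_eq_nsmul]
  have hFS : F * S = ∑ m ∈ N₁, lin (f * m) := by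
    rw [hS, Finset.mul_sum]
    exact Finset.sum_congr rfl fun m _ => (lin_mul f m).symm
  -- the idempotent
  set e₀ : WithConv (H →ₗ[Λ] K₀) := ((N₁.card : ℕ) : K₀)⁻¹ • S₁ with he₀
  set z₀ : WithConv (H →ₗ[Λ] K₀) := ((N₁.card : ℕ) : K₀)⁻¹ • (S₂ - S₁) with hz₀
  have he₀' : mapConv ι₀ e₀ = ((N₁.card : ℕ) : K)⁻¹ • S := by
    rw [he₀, mapConv_smul, hι₀q, hS₁]
  have hz₀' : mapConv ι₀ z₀ = ((N₁.card : ℕ) : K)⁻¹ • (F * S - S) := by
    rw [hz₀, mapConv_smul, hι₀q, map_sub, hS₁, hS₂, hFS]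
  have he : mapConv ι₀ e₀ * mapConv ι₀ e₀ = mapConv ι₀ e₀ := by
    rw [he₀', smul_mul_smul_comm, hSS, smul_smul, mul_assoc, inv_mul_cancel₀ hq, mul_one]
  have hFp : F ^ p = 1 := by rw [hF, ← lin_pow, hfp, lin_one]
  have hz : mapConv ι₀ e₀ * (F - 1) = mapConv ι₀ z₀ := by
    rw [he₀', hz₀', smul_mul_assoc, mul_sub, mul_one, mul_comm S F]
  have h0 := mul_sub_one_eq_zero b A hp hp3 hpA hR₀A hunr e₀ z₀ F he hFp hfm hz
  rw [hz, hz₀', smul_eq_zero, sub_eq_zero] at h0
  have hFS' : F * S = S := h0.resolve_left (inv_ne_zero hq)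
  -- Dedekind
  have hfinv : f ^ (p - 1) * f = 1 := by
    rw [← pow_succ, Nat.sub_add_cancel hp.one_le, hfp]
  have hinj : Set.InjOn (fun m => f * m) (N₁ : Set (WithConv (H →ₐ[Λ] K))) := by
    intro m _ m' _ hmm'
    have := congrArg (fun x => f ^ (p - 1) * x) hmm'
    simpa only [← mul_assoc, hfinv, one_mul] using this
  have hsum : ∑ g ∈ N₁.image (fun m => f * m), lin g = ∑ g ∈ N₁, lin g := by
    rw [Finset.sum_image hinj, ← hFS, hFS']
  have hmem := mem_of_sum_lin_eq hsum (f := f)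
    (Finset.mem_image.2 ⟨1, h1, mul_one f⟩)
  exact hmem

end Main

end Fermat.Agent.GP.Flat.ConnEt
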