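import Mathlib
import Fermat.Agent.GP.Flat.ConnEt.CE
import Fermat.Agent.GP.Flat.AugConn
import Fermat.Agent.GL.Local.InertiaFieldBase
import Fermat.Agent.S28.RatLocal

set_option autoImplicit false

/-!
# GP / Flat / ConnEt : (CE) inside `ℚ̄`, frozen shape

Instantiation of `mem_of_rational_coset_sums` with `K = ℚ̄`, `A | p`, `K₀ = ℚ̄^{I_A}` the inertia
field (helper26), `R₀ = A ∩ K₀`, `Λ = ℤ_(p)`; in the conventions of helper14's `AugConn`
(`connSubgroupFrozen` = the connected points `W`).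

* `mem_of_mem_connSubgroupFrozen` : `w ∈ W`, `N ≤ V` stable under `I_A`, `(σ - 1) w ∈ N` for all
  `σ ∈ I_A` ⟹ `w ∈ N`.
* `connSubgroupFrozen_le_aug` : `W ≤ (I_A - 1) V`, hence `W = (I_A - 1) V`.
-/

open Fermat.Agent.Common_helper32
open Coalgebra WithConv

namespace Fermat.Agent.GP.Flat.ConnEt

open Fermat.Agent.GL.Local.InertiaField Fermat.Agent.GP.Flat.AugInv Fermat.Agent.GP.Flat.AugConn

section Qbar

variable {p : ℕ} (hp : p.Prime) (A : ValuationSubring Qb) (hA : (p : Qb) ∈ A.nonunits)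

/-- `ℤ_(p) → A` as an algebra structure. -/
@[reducible] noncomputable def algebraRatLoc : Algebra (GaloisRep.ratLocalizedAt p) A :=
  RingHom.toAlgebra ((algebraMap (GaloisRep.ratLocalizedAt p) Qb).codRestrict A
    (algebraMap_ratLocalizedAt_mem hp A hA))

theorem isScalarTower_ratLoc :
    letI := algebraRatLoc hp A hA
    IsScalarTower (GaloisRep.ratLocalizedAt p) A Qb :=
  letI := algebraRatLoc hp A hA
  IsScalarTower.of_algebraMap_eq (fun _ => rfl)

instance isScalarTower_ratLoc_inertiaField :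
    IsScalarTower (GaloisRep.ratLocalizedAt p) (inertiaField A) Qb :=
  IsScalarTower.of_algebraMap_eq (fun _ => rfl)

theorem natCast_baseRing_eq (q : ℕ) : ((q : ℕ) : baseRing A) = baseQ A q := by
  apply Subtype.ext
  rfl

include hp hA in
/-- The inertia field is unramified: `K₀ ∩ 𝔪_A = p R₀`. -/
theorem exists_eq_p_mul_of_mem_nonunits (x : inertiaField A) (hx : (x : Qb) ∈ A.nonunits) :
    ∃ r : baseRing A, x = algebraMap (baseRing A) (inertiaField A) ((p : baseRing A) * r) := by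
  have hxA : (x : Qb) ∈ A := A.nonunits_subset hx
  set x' : baseRing A := ⟨x, hxA⟩ with hx'
  by_cases hx0 : x' = 0
  · refine ⟨0, ?_⟩
    have : x = 0 := congrArg Subtype.val hx0
    rw [this, mul_zero, map_zero]
  · obtain ⟨m, u, hu, hxu⟩ := exists_pow_mul_unit_baseRing A hp hA x' hx0
    have hm : m ≠ 0 := by
      rintro rfl
      rw [pow_zero, one_mul] at hxu
      have hunit : IsUnit x' := hxu ▸ hu
      have hinv := (isUnit_baseRing_iff A x' hx0).1 hunit
      rcases A.mem_nonunits_iff_or.1 hx with h0 | hn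
      · apply hx0
        apply Subtype.ext
        apply Subtype.ext
        exact h0
      · exact hn hinv
    obtain ⟨m', rfl⟩ := Nat.exists_eq_succ_of_ne_zero hm
    refine ⟨baseQ A p ^ m' * u, ?_⟩
    rw [natCast_baseRing_eq, ← mul_assoc, ← pow_succ', ← hxu]
    rfl

end Qbar

section Galois

variable {p : ℕ} {H : Type} [CommRing H] [Bialgebra (GaloisRep.ratLocalizedAt p) H]

/-- `σ ∈ G_ℚ` as a `ℤ_(p)`-algebra endomorphism of `ℚ̄`. -/
noncomputable def galAlgHom (p : ℕ) (σ : GQ) : Qb →ₐ[GaloisRep.ratLocalizedAt p] Qb :=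
  { (σ : Qb →+* Qb) with
    commutes' := fun r => apply_algebraMap_ratLocalizedAt σ r }

@[simp] theorem galAlgHom_apply (σ : GQ) (x : Qb) : galAlgHom p σ x = σ x := rfl

theorem mapConv_galAlgHom_lin (σ : GQ)
    (f : WithConv (H →ₐ[GaloisRep.ratLocalizedAt p] Qb)) :
    mapConv (galAlgHom p σ) (lin f) =
      lin (galAct σ (fun r => apply_algebraMap_ratLocalizedAt σ r) f) := by
  apply WithConv.ext
  ext h
  rfl

theorem galAct_inv_galAct (σ : GQ) (f : WithConv (H →ₐ[GaloisRep.ratLocalizedAt p] Qb)) :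
    galAct σ⁻¹ (fun r => apply_algebraMap_ratLocalizedAt σ⁻¹ r)
      (galAct σ (fun r => apply_algebraMap_ratLocalizedAt σ r) f) = f := by
  apply WithConv.ext
  ext h
  show σ⁻¹ (σ (f h)) = f h
  exact σ.symm_apply_apply (f h)

theorem galAct_galAct_inv (σ : GQ) (f : WithConv (H →ₐ[GaloisRep.ratLocalizedAt p] Qb)) :
    galAct σ (fun r => apply_algebraMap_ratLocalizedAt σ r)
      (galAct σ⁻¹ (fun r => apply_algebraMap_ratLocalizedAt σ⁻¹ r) f) = f := by
  apply WithConv.ext
  ext h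
  show σ (σ⁻¹ (f h)) = f h
  exact σ.apply_symm_apply (f h)

variable {n : ℕ} (b : Module.Basis (Fin n) (GaloisRep.ratLocalizedAt p) H)
  (A : ValuationSubring Qb)

include b in
/-- An element of the convolution algebra fixed by inertia is rational over the inertia
field. -/
theorem exists_rational_of_fixed (a : WithConv (H →ₗ[GaloisRep.ratLocalizedAt p] Qb))
    (ha : ∀ σ ∈ A.inertiaSubgroupIn ℚ, mapConv (galAlgHom p σ) a = a) :
    ∃ a₀ : WithConv (H →ₗ[GaloisRep.ratLocalizedAt p] inertiaField A),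
      mapConv (IsScalarTower.toAlgHom (GaloisRep.ratLocalizedAt p) (inertiaField A) Qb) a₀ = a := by
  have hmem : ∀ k, a (b k) ∈ inertiaField A := by
    intro k
    rw [mem_inertiaField_iff]
    intro σ hσ
    have := congrArg (fun c : WithConv (H →ₗ[GaloisRep.ratLocalizedAt p] Qb) => c (b k)) (ha σ hσ)
    exact this
  refine ⟨ofCoords b (inertiaField A) (fun k => ⟨a (b k), hmem k⟩), ?_⟩
  rw [mapConv_ofCoords]
  exact ofCoords_coords b a

end Galois


section Frozen

variable {p : ℕ} {H : Type} [CommRing H] [Bialgebra (GaloisRep.ratLocalizedAt p) H]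
  [Coalgebra.IsCocomm (GaloisRep.ratLocalizedAt p) H]
  [Module.Finite (GaloisRep.ratLocalizedAt p) H] [Module.Free (GaloisRep.ratLocalizedAt p) H]
  {V : Type*} [AddCommGroup V] [Finite V]

/-- **(CE), frozen shape.**  `W` = connected points of `V ≃ Hom_alg(H, ℚ̄)` at `A | p`, `p ≥ 3`.
If `w ∈ W` and `N ≤ V` is an inertia-stable subgroup containing `(σ - 1) w` for all `σ ∈ I_A`,
then `w ∈ N`. -/
theorem mem_of_mem_connSubgroupFrozen (hp : p.Prime) (hp3 : 3 ≤ p) (act : GQ → V → V)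
    (e : WithConv (H →ₐ[GaloisRep.ratLocalizedAt p] AlgebraicClosure ℚ) ≃ V)
    (he_mul : ∀ f g : WithConv (H →ₐ[GaloisRep.ratLocalizedAt p] AlgebraicClosure ℚ),
      e (f * g) = e f + e g)
    (he_equiv : ∀ (σ : AlgebraicClosure ℚ ≃ₐ[ℚ] AlgebraicClosure ℚ)
      (f g : WithConv (H →ₐ[GaloisRep.ratLocalizedAt p] AlgebraicClosure ℚ)),
      (∀ h : H, g h = σ (f h)) → e g = act σ (e f))
    (hV : ∀ u : V, p • u = 0)
    (A : ValuationSubring (AlgebraicClosure ℚ)) (hA : A.LiesOverPrime p)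
    (N : AddSubgroup V) (hN : ∀ σ ∈ A.inertiaSubgroupIn ℚ, ∀ u ∈ N, act σ u ∈ N)
    {w : V} (hw : w ∈ connSubgroupFrozen hp e he_mul hV A hA)
    (hwN : ∀ σ ∈ A.inertiaSubgroupIn ℚ, act σ w - w ∈ N) : w ∈ N := by
  classical
  have : Fintype V := Fintype.ofFinite V
  let _ := algebraRatLoc hp A hA
  have : IsScalarTower (GaloisRep.ratLocalizedAt p) A Qb := isScalarTower_ratLoc hp A hA
  have : IsDiscreteValuationRing (baseRing A) := isDiscreteValuationRing_baseRing A hp hA
  set b := Module.finBasis (GaloisRep.ratLocalizedAt p) H with hb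
  have he1 : e 1 = 0 := map_one_of_mul e he_mul
  have hact : ∀ (σ : GQ) (m : WithConv (H →ₐ[GaloisRep.ratLocalizedAt p] Qb)),
      e (galAct σ (fun r => apply_algebraMap_ratLocalizedAt σ r) m) = act σ (e m) := fun σ m =>
    he_equiv σ m _ fun h => galAct_apply σ _ m h
  -- the finite group `N₁`
  set N₁ : Finset (WithConv (H →ₐ[GaloisRep.ratLocalizedAt p] Qb)) :=
    (Finset.univ.filter (fun u : V => u ∈ N)).image e.symm with hN₁
  have hmemN₁ : ∀ m, m ∈ N₁ ↔ e m ∈ N := by
    intro m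
    rw [hN₁, Finset.mem_image]
    constructor
    · rintro ⟨u, hu, rfl⟩
      rw [e.apply_symm_apply]
      exact (Finset.mem_filter.1 hu).2
    · intro hm
      exact ⟨e m, Finset.mem_filter.2 ⟨Finset.mem_univ _, hm⟩, e.symm_apply_apply m⟩
  have h1 : (1 : WithConv (H →ₐ[GaloisRep.ratLocalizedAt p] Qb)) ∈ N₁ := by
    rw [hmemN₁, he1]
    exact N.zero_mem
  have hmul : ∀ m ∈ N₁, ∀ m' ∈ N₁, m * m' ∈ N₁ := by
    intro m hm m' hm'
    rw [hmemN₁] at hm hm' ⊢
    rw [he_mul]
    exact N.add_mem hm hm'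
  have hinv : ∀ m ∈ N₁, ∃ m' ∈ N₁, m * m' = 1 := by
    intro m hm
    rw [hmemN₁] at hm
    refine ⟨e.symm (-e m), ?_, ?_⟩
    · rw [hmemN₁, e.apply_symm_apply]
      exact N.neg_mem hm
    · apply e.injective
      rw [he_mul, e.apply_symm_apply, add_neg_cancel, he1]
  set f : WithConv (H →ₐ[GaloisRep.ratLocalizedAt p] Qb) := e.symm w with hf
  have hfp : f ^ p = 1 := by
    apply e.injective
    rw [map_pow_of_mul e he_mul, hV, he1]
  have hfm : ∀ k, f (b k) - algebraMap (GaloisRep.ratLocalizedAt p) Qb (Coalgebra.counit (b k)) ∈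
      A.nonunits := by
    intro k
    rw [A.mem_nonunits_iff]
    exact (mem_connSubgroupFrozen_iff hp e he_mul hV A hA w).1 hw (b k)
  -- invariance of the coset sums
  set S : WithConv (H →ₗ[GaloisRep.ratLocalizedAt p] Qb) := ∑ m ∈ N₁, lin m with hS
  have hSfix : ∀ σ ∈ A.inertiaSubgroupIn ℚ, mapConv (galAlgHom p σ) S = S := by
    intro σ hσ
    have hσ' : σ⁻¹ ∈ A.inertiaSubgroupIn ℚ := inv_mem hσ
    rw [hS, map_sum]
    refine Finset.sum_nbij'
      (fun m => galAct σ (fun r => apply_algebraMap_ratLocalizedAt σ r) m)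
      (fun m => galAct σ⁻¹ (fun r => apply_algebraMap_ratLocalizedAt σ⁻¹ r) m)
      (fun m hm => ?_) (fun m hm => ?_) (fun m _ => galAct_inv_galAct σ m)
      (fun m _ => galAct_galAct_inv σ m) (fun m _ => mapConv_galAlgHom_lin σ m)
    · rw [hmemN₁] at hm ⊢
      rw [hact]
      exact hN σ hσ _ hm
    · rw [hmemN₁] at hm ⊢
      rw [hact]
      exact hN σ⁻¹ hσ' _ hm
  have hFSfix : ∀ σ ∈ A.inertiaSubgroupIn ℚ, mapConv (galAlgHom p σ) (lin f * S) = lin f * S := by
    intro σ hσ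
    set nσ : WithConv (H →ₐ[GaloisRep.ratLocalizedAt p] Qb) := e.symm (act σ w - w) with hnσ
    have hnσN : nσ ∈ N₁ := by
      rw [hmemN₁, hnσ, e.apply_symm_apply]
      exact hwN σ hσ
    have hσf : galAct σ (fun r => apply_algebraMap_ratLocalizedAt σ r) f = f * nσ := by
      apply e.injective
      rw [hact, he_mul, hnσ, hf, e.apply_symm_apply, e.apply_symm_apply]
      abel
    obtain ⟨nσ', hnσ', hnn⟩ := hinv nσ hnσN
    rw [map_mul, hSfix σ hσ, mapConv_galAlgHom_lin, hσf, lin_mul, mul_assoc,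
      lin_mul_sum_eq N₁ hmul hnσN hnσ' hnn]
  obtain ⟨S₁, hS₁⟩ := exists_rational_of_fixed b A S hSfix
  obtain ⟨S₂, hS₂⟩ := exists_rational_of_fixed b A (lin f * S) hFSfix
  have hS₂' : mapConv (IsScalarTower.toAlgHom (GaloisRep.ratLocalizedAt p) (inertiaField A) Qb) S₂ =
      ∑ m ∈ N₁, lin (f * m) := by
    rw [hS₂, hS, Finset.mul_sum]
    exact Finset.sum_congr rfl fun m _ => (lin_mul f m).symm
  have key := mem_of_rational_coset_sums (R₀ := baseRing A) b A hp hp3 hA (fun r => r.2)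
    (fun x hx => exists_eq_p_mul_of_mem_nonunits hp A hA x hx) N₁ h1 hmul hinv f hfp hfm S₁ S₂
    hS₁ hS₂'
  have := (hmemN₁ f).1 key
  rwa [hf, e.apply_symm_apply] at this

end Frozen

section Aug

variable {p : ℕ} {H : Type} [CommRing H] [Bialgebra (GaloisRep.ratLocalizedAt p) H]
  {V : Type*} [AddCommGroup V]

theorem galAct_mul (σ : GQ) (f g : WithConv (H →ₐ[GaloisRep.ratLocalizedAt p] Qb)) :
    galAct σ (fun r => apply_algebraMap_ratLocalizedAt σ r) (f * g) =
      galAct σ (fun r => apply_algebraMap_ratLocalizedAt σ r) f *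
        galAct σ (fun r => apply_algebraMap_ratLocalizedAt σ r) g := by
  apply lin_injective
  rw [← mapConv_galAlgHom_lin, lin_mul, map_mul, mapConv_galAlgHom_lin, mapConv_galAlgHom_lin,
    ← lin_mul]

/-- The action on `V` transported from the Galois action on points is additive. -/
theorem act_add_of_equiv (act : GQ → V → V)
    (e : WithConv (H →ₐ[GaloisRep.ratLocalizedAt p] AlgebraicClosure ℚ) ≃ V)
    (he_mul : ∀ f g : WithConv (H →ₐ[GaloisRep.ratLocalizedAt p] AlgebraicClosure ℚ),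
      e (f * g) = e f + e g)
    (he_equiv : ∀ (σ : AlgebraicClosure ℚ ≃ₐ[ℚ] AlgebraicClosure ℚ)
      (f g : WithConv (H →ₐ[GaloisRep.ratLocalizedAt p] AlgebraicClosure ℚ)),
      (∀ h : H, g h = σ (f h)) → e g = act σ (e f))
    (σ : GQ) (u u' : V) : act σ (u + u') = act σ u + act σ u' := by
  have hact : ∀ m : WithConv (H →ₐ[GaloisRep.ratLocalizedAt p] Qb),
      e (galAct σ (fun r => apply_algebraMap_ratLocalizedAt σ r) m) = act σ (e m) := fun m =>
    he_equiv σ m _ fun _ => rfl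
  obtain ⟨f, rfl⟩ := e.surjective u
  obtain ⟨g, rfl⟩ := e.surjective u'
  rw [← he_mul, ← hact, ← hact, ← hact, galAct_mul, he_mul]

omit [AddCommGroup V] in
/-- The action on `V` transported from the Galois action on points is multiplicative. -/
theorem act_mul_of_equiv (act : GQ → V → V)
    (e : WithConv (H →ₐ[GaloisRep.ratLocalizedAt p] AlgebraicClosure ℚ) ≃ V)
    (he_equiv : ∀ (σ : AlgebraicClosure ℚ ≃ₐ[ℚ] AlgebraicClosure ℚ)
      (f g : WithConv (H →ₐ[GaloisRep.ratLocalizedAt p] AlgebraicClosure ℚ)),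
      (∀ h : H, g h = σ (f h)) → e g = act σ (e f))
    (σ τ : GQ) (u : V) : act (σ * τ) u = act σ (act τ u) := by
  obtain ⟨f, rfl⟩ := e.surjective u
  rw [← he_equiv τ f (galAct τ (fun r => apply_algebraMap_ratLocalizedAt τ r) f)
      (fun _ => rfl),
    ← he_equiv σ _ (galAct σ (fun r => apply_algebraMap_ratLocalizedAt σ r)
      (galAct τ (fun r => apply_algebraMap_ratLocalizedAt τ r) f)) (fun _ => rfl)]
  exact (he_equiv (σ * τ) f _ (fun h => rfl)).symm

variable [Coalgebra.IsCocomm (GaloisRep.ratLocalizedAt p) H]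
  [Module.Finite (GaloisRep.ratLocalizedAt p) H] [Module.Free (GaloisRep.ratLocalizedAt p) H]
  [Finite V]

/-- **`W = (I_A - 1) V`**: the connected points are exactly the augmentation image of inertia. -/
theorem connSubgroupFrozen_le_aug (hp : p.Prime) (hp3 : 3 ≤ p) (act : GQ → V → V)
    (e : WithConv (H →ₐ[GaloisRep.ratLocalizedAt p] AlgebraicClosure ℚ) ≃ V)
    (he_mul : ∀ f g : WithConv (H →ₐ[GaloisRep.ratLocalizedAt p] AlgebraicClosure ℚ),
      e (f * g) = e f + e g)
    (he_equiv : ∀ (σ : AlgebraicClosure ℚ ≃ₐ[ℚ] AlgebraicClosure ℚ)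
      (f g : WithConv (H →ₐ[GaloisRep.ratLocalizedAt p] AlgebraicClosure ℚ)),
      (∀ h : H, g h = σ (f h)) → e g = act σ (e f))
    (hV : ∀ u : V, p • u = 0)
    (A : ValuationSubring (AlgebraicClosure ℚ)) (hA : A.LiesOverPrime p) :
    connSubgroupFrozen hp e he_mul hV A hA ≤
      AddSubgroup.closure {u : V | ∃ σ ∈ A.inertiaSubgroupIn ℚ, ∃ u' : V, u = act σ u' - u'} := by
  intro w hw
  have hadd := act_add_of_equiv act e he_mul he_equiv
  have hmulact := act_mul_of_equiv act e he_equiv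
  have hzero : ∀ σ : GQ, act σ 0 = 0 := by
    intro σ
    have := hadd σ 0 0
    rw [add_zero] at this
    exact left_eq_add.mp this
  have hneg : ∀ (σ : GQ) (u : V), act σ (-u) = -act σ u := by
    intro σ u
    have := hadd σ u (-u)
    rw [add_neg_cancel, hzero] at this
    exact (neg_eq_of_add_eq_zero_right this.symm).symm
  refine mem_of_mem_connSubgroupFrozen hp hp3 act e he_mul he_equiv hV A hA _ ?_ hw ?_
  · intro σ hσ u hu
    induction hu using AddSubgroup.closure_induction with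
    | mem u hu =>
      obtain ⟨τ, hτ, u', rfl⟩ := hu
      have h1 : act σ (act τ u' - u') = (act (σ * τ) u' - u') - (act σ u' - u') := by
        rw [sub_eq_add_neg, hadd, hneg, hmulact]
        abel
      rw [h1]
      refine AddSubgroup.sub_mem _ (AddSubgroup.subset_closure ?_) (AddSubgroup.subset_closure ?_)
      · exact ⟨σ * τ, mul_mem hσ hτ, u', rfl⟩
      · exact ⟨σ, hσ, u', rfl⟩
    | zero => rw [hzero]; exact AddSubgroup.zero_mem _
    | add a b _ _ ha hb => rw [hadd]; exact AddSubgroup.add_mem _ ha hb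
    | neg a _ ha => rw [hneg]; exact AddSubgroup.neg_mem _ ha
  · intro σ hσ
    exact AddSubgroup.subset_closure ⟨σ, hσ, w, rfl⟩

end Aug

section IsFlatAt

theorem finite_quot_smul_top {R : Type*} [CommRing R] {M : Type*} [AddCommGroup M] [Module R M]
    [Module.Finite R M] (I : Ideal R) (hI : Finite (R ⧸ I)) :
    Finite (M ⧸ (I • (⊤ : Submodule R M))) := by
  have : Module.Finite (R ⧸ I) (M ⧸ (I • (⊤ : Submodule R M))) :=
    Module.Finite.of_restrictScalars_finite R (R ⧸ I) _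
  exact Module.finite_of_finite (R ⧸ I)

/-- **Connected–étale package for a flat deformation, with (CE)** (`p ≥ 3`, `I ∋ p` of finite
index): the subgroup `W ⊂ V/IV` of connected points is stable under `D_A`, contains `(σ - 1)u`
for `σ ∈ I_A`, has no nonzero `I_A`-fixed element, and lies in every `I_A`-stable subgroup `N`
with `(I_A - 1) w ⊂ N`. -/
theorem exists_connSubgroup_of_isFlatAt_ce {R : Type} [CommRing R] [IsLocalRing R]
    (ρ : GaloisRepAdic R) {p : ℕ} (hp : p.Prime) (hp3 : 3 ≤ p) (hflat : ρ.IsFlatAt p)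
    (I : Ideal R) (hI : Finite (R ⧸ I)) (hpI : (p : R) ∈ I)
    (A : ValuationSubring (AlgebraicClosure ℚ)) (hA : A.LiesOverPrime p) :
    ∃ W : AddSubgroup (ρ.V ⧸ (I • (⊤ : Submodule R ρ.V))),
      (∀ σ ∈ A.decompositionSubgroup ℚ, ∀ w, ρ.levelAction I σ w ∈ W ↔ w ∈ W) ∧
      (∀ σ ∈ A.inertiaSubgroupIn ℚ, ∀ u, ρ.levelAction I σ u - u ∈ W) ∧
      (∀ w ∈ W, (∀ τ ∈ A.inertiaSubgroupIn ℚ, ρ.levelAction I τ w = w) → w = 0) ∧
      (∀ N : AddSubgroup (ρ.V ⧸ (I • (⊤ : Submodule R ρ.V))),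
        (∀ σ ∈ A.inertiaSubgroupIn ℚ, ∀ u ∈ N, ρ.levelAction I σ u ∈ N) →
        ∀ w ∈ W, (∀ σ ∈ A.inertiaSubgroupIn ℚ, ρ.levelAction I σ w - w ∈ N) → w ∈ N) := by
  obtain ⟨_, hH⟩ := hflat
  obtain ⟨H, _, _, hfin, hfl, hco, e, he_mul, he_equiv⟩ := hH I hI
  have := hfin
  have := hfl
  have := hco
  have : Fact p.Prime := ⟨hp⟩
  have : IsLocalRing (GaloisRep.ratLocalizedAt p) := Fermat.Agent.S28.isLocalRing_ratLocalizedAt p
  have : Module.Free (GaloisRep.ratLocalizedAt p) H := Module.free_of_flat_of_isLocalRing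
  have : Finite (ρ.V ⧸ (I • (⊤ : Submodule R ρ.V))) := finite_quot_smul_top I hI
  have hV : ∀ u : ρ.V ⧸ (I • (⊤ : Submodule R ρ.V)), p • u = 0 := by
    intro u
    induction u using Submodule.Quotient.induction_on with
    | H x =>
      rw [← Submodule.Quotient.mk_smul, Submodule.Quotient.mk_eq_zero,
        ← Nat.cast_smul_eq_nsmul R]
      exact Submodule.smul_mem_smul hpI Submodule.mem_top
  refine ⟨connSubgroupFrozen hp e he_mul hV A hA, ?_, ?_, ?_, ?_⟩
  · intro σ hσ w
    exact act_mem_connSubgroupFrozen_iff hp (fun σ u => ρ.levelAction I σ u) e he_mul he_equiv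
      hV A hA hσ w
  · intro σ hσ u
    exact act_sub_mem_connSubgroupFrozen hp (fun σ u => ρ.levelAction I σ u) e he_mul he_equiv
      hV A hA hσ u
  · intro w hw hfix
    exact eq_zero_of_mem_connSubgroupFrozen_of_fixed hp hp3 (fun σ u => ρ.levelAction I σ u) e
      he_mul he_equiv hV A hA hw hfix
  · intro N hN w hw hwN
    exact mem_of_mem_connSubgroupFrozen hp hp3 (fun σ u => ρ.levelAction I σ u) e he_mul he_equiv
      hV A hA N hN hw hwN

end IsFlatAt

end Fermat.Agent.GP.Flat.ConnEt
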