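import Mathlib
import Fermat.Agent.GP.Flat.ConnEt.CEQbar

set_option autoImplicit false

/-!
# GP / Flat / ConnEt : (ORD-SHAPE)

`R` a finite local ring of characteristic `p ≥ 3`, `ρ : GaloisRepAdic R` flat at `p` (frozen
`IsFlatAt`), `P | p`.  If the image of `(I_P - 1) V` in `V / 𝔪 V` is a line, then `(I_P - 1) V` is
a free rank one direct summand `R ∙ b 0` of `V`, stable under `D_P`: the frozen shape of
`GaloisRepAdic.IsOrdinaryAt` at `P`.

Proof: `N := (I_P - 1) V` is the group of connected points; by (CE) `N ∩ 𝔪 V = 𝔪 N`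
(take `N₁ := 𝔪 N`), hence `N = R ñ + 𝔪 N` and `N = R ñ` by Nakayama.
-/

open Fermat.Agent.Common_helper32

namespace Fermat.Agent.GP.Flat.ConnEt

open IsLocalRing

section Basis

variable {R : Type*} [CommRing R] [IsLocalRing R] {V : Type*} [AddCommGroup V] [Module R V]
  [Module.Free R V] [Module.Finite R V]

/-- Over a local ring, a vector of a free module of rank two which does not lie in `𝔪 V` is the
first vector of a basis. -/
theorem exists_basis_zero_eq (h2 : Module.finrank R V = 2) {x : V}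
    (hx : x ∉ maximalIdeal R • (⊤ : Submodule R V)) :
    ∃ b : Module.Basis (Fin 2) R V, b 0 = x := by
  classical
  have : Nontrivial R := inferInstance
  set β : Module.Basis (Fin 2) R V := Module.finBasisOfFinrankEq R V h2 with hβ
  obtain ⟨c0, c1, hsum⟩ : ∃ c0 c1 : R, x = c0 • β 0 + c1 • β 1 :=
    ⟨β.repr x 0, β.repr x 1, by conv_lhs => rw [← β.sum_repr x, Fin.sum_univ_two]⟩
  have hcard : Fintype.card (Fin 2) = Module.finrank R V := by rw [h2]; rfl
  -- one of the coordinates is a unit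
  have hunit : IsUnit c0 ∨ IsUnit c1 := by
    by_contra hcon
    rw [not_or] at hcon
    apply hx
    rw [hsum]
    refine Submodule.add_mem _ (Submodule.smul_mem_smul ?_ Submodule.mem_top)
      (Submodule.smul_mem_smul ?_ Submodule.mem_top)
    · exact (IsLocalRing.mem_maximalIdeal _).2 hcon.1
    · exact (IsLocalRing.mem_maximalIdeal _).2 hcon.2
  rcases hunit with hu | hu
  · -- `![x, β 1]`
    obtain ⟨u, hu'⟩ := hu
    have hspan : ⊤ ≤ Submodule.span R (Set.range ![x, β 1]) := by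
      rw [← β.span_eq, Submodule.span_le]
      rintro _ ⟨i, rfl⟩
      have hx_mem : x ∈ Submodule.span R (Set.range ![x, β 1]) :=
        Submodule.subset_span ⟨0, rfl⟩
      have h1_mem : β 1 ∈ Submodule.span R (Set.range ![x, β 1]) :=
        Submodule.subset_span ⟨1, rfl⟩
      fin_cases i
      · have h0 : β 0 = (↑u⁻¹ : R) • (x - c1 • β 1) := by
          have : x - c1 • β 1 = (u : R) • β 0 := by
            rw [hu', hsum]
            abel
          rw [this, smul_smul, Units.inv_mul, one_smul]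
        show β 0 ∈ _
        rw [h0]
        exact Submodule.smul_mem _ _ (Submodule.sub_mem _ hx_mem (Submodule.smul_mem _ _ h1_mem))
      · exact h1_mem
    refine ⟨basisOfTopLeSpanOfCardEqFinrank ![x, β 1] hspan hcard, ?_⟩
    rw [coe_basisOfTopLeSpanOfCardEqFinrank]
    rfl
  · -- `![x, β 0]`
    obtain ⟨u, hu'⟩ := hu
    have hspan : ⊤ ≤ Submodule.span R (Set.range ![x, β 0]) := by
      rw [← β.span_eq, Submodule.span_le]
      rintro _ ⟨i, rfl⟩
      have hx_mem : x ∈ Submodule.span R (Set.range ![x, β 0]) :=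
        Submodule.subset_span ⟨0, rfl⟩
      have h0_mem : β 0 ∈ Submodule.span R (Set.range ![x, β 0]) :=
        Submodule.subset_span ⟨1, rfl⟩
      fin_cases i
      · exact h0_mem
      · have h1 : β 1 = (↑u⁻¹ : R) • (x - c0 • β 0) := by
          have : x - c0 • β 0 = (u : R) • β 1 := by
            rw [hu', hsum]
            abel
          rw [this, smul_smul, Units.inv_mul, one_smul]
        show β 1 ∈ _
        rw [h1]
        exact Submodule.smul_mem _ _ (Submodule.sub_mem _ hx_mem (Submodule.smul_mem _ _ h0_mem))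
    refine ⟨basisOfTopLeSpanOfCardEqFinrank ![x, β 0] hspan hcard, ?_⟩
    rw [coe_basisOfTopLeSpanOfCardEqFinrank]
    rfl

end Basis

section Bot

variable {R : Type} [CommRing R] [IsLocalRing R] [Finite R] (ρ : GaloisRepAdic R)

/-- **Connected–étale package at full level** (`p = 0` in the finite local ring `R`), stated on
`ρ.V` itself. -/
theorem exists_connSubgroup_of_isFlatAt_bot {p : ℕ} (hp : p.Prime) (hp3 : 3 ≤ p)
    (hpR : (p : R) = 0) (hflat : ρ.IsFlatAt p)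
    (A : ValuationSubring (AlgebraicClosure ℚ)) (hA : A.LiesOverPrime p) :
    ∃ W : AddSubgroup ρ.V,
      (∀ σ ∈ A.decompositionSubgroup ℚ, ∀ w, ρ.ρ σ w ∈ W ↔ w ∈ W) ∧
      (∀ σ ∈ A.inertiaSubgroupIn ℚ, ∀ u, ρ.ρ σ u - u ∈ W) ∧
      (∀ w ∈ W, (∀ τ ∈ A.inertiaSubgroupIn ℚ, ρ.ρ τ w = w) → w = 0) ∧
      (∀ N : AddSubgroup ρ.V, (∀ σ ∈ A.inertiaSubgroupIn ℚ, ∀ u ∈ N, ρ.ρ σ u ∈ N) →
        ∀ w ∈ W, (∀ σ ∈ A.inertiaSubgroupIn ℚ, ρ.ρ σ w - w ∈ N) → w ∈ N) := by
  have hfin : Finite (R ⧸ (⊥ : Ideal R)) :=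
    Finite.of_surjective (Ideal.Quotient.mk (⊥ : Ideal R)) Ideal.Quotient.mk_surjective
  have hpbot : (p : R) ∈ (⊥ : Ideal R) := by rw [hpR]; exact Ideal.zero_mem _
  obtain ⟨W, hWD, hWI, hWfix, hWce⟩ :=
    exists_connSubgroup_of_isFlatAt_ce ρ hp hp3 hflat ⊥ hfin hpbot A hA
  set π : ρ.V →ₗ[R] ρ.V ⧸ ((⊥ : Ideal R) • (⊤ : Submodule R ρ.V)) :=
    ((⊥ : Ideal R) • (⊤ : Submodule R ρ.V)).mkQ with hπ
  have hπinj : Function.Injective π := by
    rw [← LinearMap.ker_eq_bot, hπ, Submodule.ker_mkQ, Submodule.bot_smul]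
  have hπact : ∀ (σ : GQ) (v : ρ.V), ρ.levelAction ⊥ σ (π v) = π (ρ.ρ σ v) := fun σ v => rfl
  refine ⟨W.comap π.toAddMonoidHom, ?_, ?_, ?_, ?_⟩
  · intro σ hσ w
    show π (ρ.ρ σ w) ∈ W ↔ π w ∈ W
    rw [← hπact]
    exact hWD σ hσ (π w)
  · intro σ hσ u
    show π (ρ.ρ σ u - u) ∈ W
    rw [map_sub, ← hπact]
    exact hWI σ hσ (π u)
  · intro w hw hfix
    apply hπinj
    rw [map_zero]
    refine hWfix (π w) hw fun τ hτ => ?_
    rw [hπact, hfix τ hτ]
  · intro N hN w hw hwN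
    have hmem : π w ∈ N.map π.toAddMonoidHom := by
      refine hWce (N.map π.toAddMonoidHom) ?_ (π w) hw ?_
      · rintro σ hσ _ ⟨u, hu, rfl⟩
        exact ⟨ρ.ρ σ u, hN σ hσ u hu, (hπact σ u).symm⟩
      · intro σ hσ
        exact ⟨ρ.ρ σ w - w, hwN σ hσ, by
          show π (ρ.ρ σ w - w) = _
          rw [map_sub, ← hπact]⟩
    obtain ⟨u, hu, huw⟩ := hmem
    have : u = w := hπinj huw
    rwa [← this]

end Bot

section OrdShape

variable {R : Type} [CommRing R] [IsLocalRing R] [Finite R] (ρ : GaloisRepAdic R)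

/-- **(ORD-SHAPE) at one place.**  `ρ` flat at `p ≥ 3` over a finite local ring of
characteristic `p`; if `(I_P - 1) V` is, modulo `𝔪 V`, a line spanned by the image of `v₀`, and
not zero, then it is a `D_P`-stable free rank one direct summand `R ∙ b 0`. -/
theorem exists_line_of_isFlatAt {p : ℕ} (hp : p.Prime) (hp3 : 3 ≤ p) (hpR : (p : R) = 0)
    (hflat : ρ.IsFlatAt p) (P : ValuationSubring (AlgebraicClosure ℚ)) (hP : P.LiesOverPrime p)
    (v₀ : ρ.V)
    (hv₀ : ∀ σ ∈ P.inertiaSubgroupIn ℚ, ∀ v : ρ.V, ∃ c : R,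
      ρ.ρ σ v - v - c • v₀ ∈ maximalIdeal R • (⊤ : Submodule R ρ.V))
    (hne : ∃ σ₀ ∈ P.inertiaSubgroupIn ℚ, ∃ v : ρ.V,
      ρ.ρ σ₀ v - v ∉ maximalIdeal R • (⊤ : Submodule R ρ.V)) :
    ∃ L : Submodule R ρ.V,
      (∃ b : Module.Basis (Fin 2) R ρ.V, L = R ∙ b 0) ∧
      (∀ σ ∈ P.decompositionSubgroup ℚ, ∀ v ∈ L, ρ.ρ σ v ∈ L) ∧
      (∀ σ ∈ P.inertiaSubgroupIn ℚ, ∀ v : ρ.V, ρ.ρ σ v - v ∈ L) := by
  classical
  obtain ⟨W, hWD, hWI, -, hWce⟩ := exists_connSubgroup_of_isFlatAt_bot ρ hp hp3 hpR hflat P hP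
  set 𝔪V : Submodule R ρ.V := maximalIdeal R • (⊤ : Submodule R ρ.V) with h𝔪V
  -- the generators
  set S : Set ρ.V := {u | ∃ σ ∈ P.inertiaSubgroupIn ℚ, ∃ u' : ρ.V, u = ρ.ρ σ u' - u'} with hS
  have hSW : S ⊆ W := by
    rintro _ ⟨σ, hσ, u', rfl⟩
    exact hWI σ hσ u'
  -- `W` is the closure of `S`
  have hWcl : W = AddSubgroup.closure S := by
    apply le_antisymm
    · intro w hw
      refine hWce (AddSubgroup.closure S) ?_ w hw ?_
      · intro σ hσ u hu
        have : ρ.ρ σ u = u + (ρ.ρ σ u - u) := by abel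
        rw [this]
        exact AddSubgroup.add_mem _ hu (AddSubgroup.subset_closure ⟨σ, hσ, u, rfl⟩)
      · intro σ hσ
        exact AddSubgroup.subset_closure ⟨σ, hσ, w, rfl⟩
    · rw [AddSubgroup.closure_le]
      exact hSW
  -- `W` is an `R`-submodule
  have hsmul : ∀ (c : R) (w : ρ.V), w ∈ W → c • w ∈ W := by
    intro c w hw
    rw [hWcl] at hw
    induction hw using AddSubgroup.closure_induction with
    | mem u hu =>
      obtain ⟨σ, hσ, u', rfl⟩ := hu
      have : c • (ρ.ρ σ u' - u') = ρ.ρ σ (c • u') - c • u' := by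
        rw [smul_sub, map_smul]
      rw [this]
      exact hWI σ hσ _
    | zero => rw [smul_zero]; exact W.zero_mem
    | add a b _ _ ha hb => rw [smul_add]; exact W.add_mem ha hb
    | neg a _ ha => rw [smul_neg]; exact W.neg_mem ha
  set N : Submodule R ρ.V :=
    { carrier := W
      add_mem' := W.add_mem
      zero_mem' := W.zero_mem
      smul_mem' := hsmul } with hN
  have hmemN : ∀ w, w ∈ N ↔ w ∈ W := fun w => Iff.rfl
  have hIN : ∀ σ ∈ P.inertiaSubgroupIn ℚ, ∀ u ∈ N, ρ.ρ σ u ∈ N := by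
    intro σ hσ u hu
    have : ρ.ρ σ u = u + (ρ.ρ σ u - u) := by abel
    rw [this]
    exact N.add_mem hu (hWI σ hσ u)
  -- (CE) with `N₁ = 𝔪 N`
  have hinter : N ⊓ 𝔪V ≤ maximalIdeal R • N := by
    rintro w ⟨hwN, hw𝔪⟩
    refine hWce (maximalIdeal R • N).toAddSubgroup ?_ w hwN ?_
    · intro σ hσ u hu
      change u ∈ maximalIdeal R • N at hu
      show ρ.ρ σ u ∈ maximalIdeal R • N
      refine Submodule.smul_induction_on (p := fun u => ρ.ρ σ u ∈ maximalIdeal R • N) hu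
        (fun a ha y hy => ?_) (fun x y hx hy => ?_)
      · show ρ.ρ σ (a • y) ∈ maximalIdeal R • N
        rw [map_smul]
        exact Submodule.smul_mem_smul ha (hIN σ hσ y hy)
      · show ρ.ρ σ (x + y) ∈ maximalIdeal R • N
        rw [map_add]
        exact Submodule.add_mem _ hx hy
    · intro σ hσ
      show ρ.ρ σ w - w ∈ maximalIdeal R • N
      have hw𝔪' : w ∈ maximalIdeal R • (⊤ : Submodule R ρ.V) := hw𝔪
      refine Submodule.smul_induction_on (p := fun u => ρ.ρ σ u - u ∈ maximalIdeal R • N) hw𝔪'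
        (fun a ha y _ => ?_) (fun x y hx hy => ?_)
      · show ρ.ρ σ (a • y) - a • y ∈ maximalIdeal R • N
        have : ρ.ρ σ (a • y) - a • y = a • (ρ.ρ σ y - y) := by rw [map_smul, smul_sub]
        rw [this]
        exact Submodule.smul_mem_smul ha (hWI σ hσ y)
      · show ρ.ρ σ (x + y) - (x + y) ∈ maximalIdeal R • N
        have : ρ.ρ σ (x + y) - (x + y) = (ρ.ρ σ x - x) + (ρ.ρ σ y - y) := by
          rw [map_add]; abel
        rw [this]
        exact Submodule.add_mem _ hx hy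
  -- the generator
  obtain ⟨σ₀, hσ₀, u₀, hu₀⟩ := hne
  set ñ : ρ.V := ρ.ρ σ₀ u₀ - u₀ with hñ
  have hñN : ñ ∈ N := hWI σ₀ hσ₀ u₀
  obtain ⟨c₀, hc₀⟩ := hv₀ σ₀ hσ₀ u₀
  have hc₀u : IsUnit c₀ := by
    by_contra hnu
    apply hu₀
    have h1 : c₀ • v₀ ∈ 𝔪V :=
      Submodule.smul_mem_smul ((IsLocalRing.mem_maximalIdeal _).2 hnu) Submodule.mem_top
    have := 𝔪V.add_mem hc₀ h1
    rwa [sub_add_cancel] at this
  set T : Submodule R ρ.V := (R ∙ ñ) ⊔ 𝔪V with hT
  have hñT : ñ ∈ T := Submodule.mem_sup_left (Submodule.mem_span_singleton_self ñ)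
  have hv₀T : v₀ ∈ T := by
    obtain ⟨u, hu⟩ := hc₀u
    have h1 : c₀ • v₀ ∈ T := by
      have : c₀ • v₀ = ñ - (ñ - c₀ • v₀) := by abel
      rw [this]
      exact T.sub_mem hñT (Submodule.mem_sup_right hc₀)
    have : v₀ = (↑u⁻¹ : R) • (c₀ • v₀) := by
      rw [← hu, smul_smul, Units.inv_mul, one_smul]
    rw [this]
    exact T.smul_mem _ h1
  have hST : ∀ σ ∈ P.inertiaSubgroupIn ℚ, ∀ v : ρ.V, ρ.ρ σ v - v ∈ T := by
    intro σ hσ v
    obtain ⟨c, hc⟩ := hv₀ σ hσ v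
    have : ρ.ρ σ v - v = (ρ.ρ σ v - v - c • v₀) + c • v₀ := by abel
    rw [this]
    exact T.add_mem (Submodule.mem_sup_right hc) (T.smul_mem _ hv₀T)
  have hNT : N ≤ T := by
    intro w hw
    rw [hmemN, hWcl] at hw
    induction hw using AddSubgroup.closure_induction with
    | mem u hu =>
      obtain ⟨σ, hσ, u', rfl⟩ := hu
      exact hST σ hσ u'
    | zero => exact T.zero_mem
    | add a b _ _ ha hb => exact T.add_mem ha hb
    | neg a _ ha => exact T.neg_mem ha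
  have hñle : (R ∙ ñ) ≤ N := by
    rw [Submodule.span_singleton_le_iff_mem]
    exact hñN
  have hNak : N ≤ (R ∙ ñ) ⊔ maximalIdeal R • N := by
    intro x hx
    obtain ⟨y, hy, z, hz, hyz⟩ := Submodule.mem_sup.1 (hNT hx)
    have hzN : z ∈ N := by
      have : z = x - y := by rw [← hyz]; abel
      rw [this]
      exact N.sub_mem hx (hñle hy)
    rw [← hyz]
    exact Submodule.add_mem_sup hy (hinter ⟨hzN, hz⟩)
  have hVfin : Finite ρ.V := Module.finite_of_finite R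
  have hNfg : N.FG := IsNoetherian.noetherian N
  have hNle : N ≤ R ∙ ñ :=
    Submodule.le_of_le_smul_of_le_jacobson_bot hNfg (IsLocalRing.maximalIdeal_le_jacobson ⊥) hNak
  have hNeq : N = R ∙ ñ := le_antisymm hNle hñle
  obtain ⟨b, hb⟩ := exists_basis_zero_eq ρ.finrank_eq hu₀
  refine ⟨N, ⟨b, by rw [hb, hNeq]⟩, ?_, ?_⟩
  · intro σ hσ v hv
    exact (hWD σ hσ v).2 hv
  · intro σ hσ v
    exact hWI σ hσ v

/-- **(ORD-SHAPE).**  The frozen `IsOrdinaryAt` from flatness and the residual shape at every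
place above `p`. -/
theorem isOrdinaryAt_of_isFlatAt {p : ℕ} (hp : p.Prime) (hp3 : 3 ≤ p) (hpR : (p : R) = 0)
    (hflat : ρ.IsFlatAt p)
    (hshape : ∀ P : ValuationSubring (AlgebraicClosure ℚ), P.LiesOverPrime p →
      ∃ v₀ : ρ.V,
        (∀ σ ∈ P.inertiaSubgroupIn ℚ, ∀ v : ρ.V, ∃ c : R,
          ρ.ρ σ v - v - c • v₀ ∈ maximalIdeal R • (⊤ : Submodule R ρ.V)) ∧
        ∃ σ₀ ∈ P.inertiaSubgroupIn ℚ, ∃ v : ρ.V,
          ρ.ρ σ₀ v - v ∉ maximalIdeal R • (⊤ : Submodule R ρ.V)) :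
    ρ.IsOrdinaryAt p := by
  intro P hP
  obtain ⟨v₀, hv₀, hne⟩ := hshape P hP
  exact exists_line_of_isFlatAt ρ hp hp3 hpR hflat P hP v₀ hv₀ hne

end OrdShape

end Fermat.Agent.GP.Flat.ConnEt
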