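import Mathlib
import Fermat.Agent.GP.Flat.ConnEt.OrdShape
import Fermat.Agent.GP.Tan.Cocycle

set_option autoImplicit false

/-!
# GP / Flat / ConnEt : (ORD-SHAPE) in matrix form over the dual numbers

`k` a finite field of characteristic `p ≥ 3`, `r : G_ℚ →* M₂(k[ε])` with `ofMat r hr` flat at `p`.
If for every `P | p` the augmentation `(I_P - 1) k²` of the reduction `r̄ = rfst r` is a line, then
`ofMat r hr` satisfies the frozen `IsOrdinaryAt p`.  (Binder (I1) of helper47's ORDCOUNT.)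
-/

namespace Fermat.Agent.GP.Flat.ConnEt

open IsLocalRing Fermat.Agent.S53_helper35 Fermat.Agent.GP.Tan.Cocycle Matrix

section Mat

variable {k : Type} [Field k]

theorem fst_mulVec (M : Matrix (Fin 2) (Fin 2) (DualNumber k)) (v : Fin 2 → DualNumber k)
    (i : Fin 2) : (M.mulVec v i).fst = (mfst M).mulVec (fun j => (v j).fst) i := by
  simp only [Matrix.mulVec, dotProduct, Fin.sum_univ_two, TrivSqZeroExt.fst_add,
    TrivSqZeroExt.fst_mul, mfst_apply]

omit [Field k] in
theorem finite_dualNumber [Finite k] : Finite (DualNumber k) :=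
  Finite.of_injective (fun x : DualNumber k => (x.fst, x.snd)) fun x y h => by
    have h1 : x.fst = y.fst := congrArg Prod.fst h
    have h2 : x.snd = y.snd := congrArg Prod.snd h
    exact TrivSqZeroExt.ext h1 h2

theorem natCast_dualNumber_eq_zero (p : ℕ) [CharP k p] : ((p : ℕ) : DualNumber k) = 0 := by
  apply TrivSqZeroExt.ext
  · rw [TrivSqZeroExt.fst_natCast, CharP.cast_eq_zero, TrivSqZeroExt.fst_zero]
  · rw [TrivSqZeroExt.snd_natCast, TrivSqZeroExt.snd_zero]

/-- **(ORD-SHAPE), matrix form.** -/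
theorem isOrdinaryAt_ofMat_of_isFlatAt [Finite k] {p : ℕ} (hp : p.Prime) (hp3 : 3 ≤ p)
    [CharP k p] (r : GQ →* Matrix (Fin 2) (Fin 2) (DualNumber k)) (hr : MatCont r)
    (hflat : (ofMat r hr).IsFlatAt p)
    (hshape : ∀ P : ValuationSubring (AlgebraicClosure ℚ), P.LiesOverPrime p →
      ∃ w₀ : Fin 2 → k,
        (∀ σ ∈ P.inertiaSubgroupIn ℚ, ∀ w : Fin 2 → k, ∃ c : k,
          (rfst r σ).mulVec w - w = c • w₀) ∧
        ∃ σ₀ ∈ P.inertiaSubgroupIn ℚ, ∃ w : Fin 2 → k, (rfst r σ₀).mulVec w - w ≠ 0) :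
    (ofMat r hr).IsOrdinaryAt p := by
  have : Finite (DualNumber k) := finite_dualNumber
  refine isOrdinaryAt_of_isFlatAt (ofMat r hr) hp hp3 (natCast_dualNumber_eq_zero p) hflat ?_
  intro P hP
  obtain ⟨w₀, hw₀, σ₀, hσ₀, w, hw⟩ := hshape P hP
  have hmem : ∀ v : Fin 2 → DualNumber k,
      v ∈ maximalIdeal (DualNumber k) • (⊤ : Submodule (DualNumber k) (Fin 2 → DualNumber k)) ↔
        ∀ i, (v i).fst = 0 := by
    intro v
    rw [mem_smul_top_pi_iff]
    exact forall_congr' fun i =>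
      Fermat.Agent.GP.Tan.UnivInj.mem_maximalIdeal_dualNumber_iff k (v i)
  refine ⟨fun i => TrivSqZeroExt.inl (w₀ i), ?_, σ₀, hσ₀, fun i => TrivSqZeroExt.inl (w i), ?_⟩
  · intro σ hσ v
    set v' : Fin 2 → DualNumber k := v with hv'
    obtain ⟨c, hc⟩ := hw₀ σ hσ (fun j => (v' j).fst)
    refine ⟨TrivSqZeroExt.inl c, ?_⟩
    have key : ((r σ).mulVec v' - v' -
        (TrivSqZeroExt.inl c : DualNumber k) • fun i => (TrivSqZeroExt.inl (w₀ i) : DualNumber k)) ∈
        maximalIdeal (DualNumber k) •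
          (⊤ : Submodule (DualNumber k) (Fin 2 → DualNumber k)) := by
      rw [hmem]
      intro i
      have hci := congrFun hc i
      simp only [Pi.sub_apply, Pi.smul_apply, smul_eq_mul] at hci
      rw [Pi.sub_apply, Pi.sub_apply, Pi.smul_apply, TrivSqZeroExt.fst_sub,
        TrivSqZeroExt.fst_sub, fst_mulVec, smul_eq_mul, TrivSqZeroExt.fst_mul,
        TrivSqZeroExt.fst_inl, TrivSqZeroExt.fst_inl]
      rw [show mfst (r σ) = rfst r σ from rfl, hci, sub_self]
    exact key
  · intro hcon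
    apply hw
    have key : ((r σ₀).mulVec (fun i => (TrivSqZeroExt.inl (w i) : DualNumber k)) -
        fun i => (TrivSqZeroExt.inl (w i) : DualNumber k)) ∈
        maximalIdeal (DualNumber k) •
          (⊤ : Submodule (DualNumber k) (Fin 2 → DualNumber k)) := hcon
    rw [hmem] at key
    funext i
    have := key i
    rw [Pi.sub_apply, TrivSqZeroExt.fst_sub, fst_mulVec, TrivSqZeroExt.fst_inl] at this
    simpa using this

end Mat

end Fermat.Agent.GP.Flat.ConnEt
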