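import Mathlib
import Fermat.Agent.GP.Flat.ConnEt.OrdShapeMat
import Fermat.Agent.GP.Loc.PlaceConj

set_option autoImplicit false

/-!
# GP / Flat / ConnEt : (ORD-SHAPE) from the shape at ONE place

The residual shape `(I_P - 1) k² = line` at one place `A | p` gives it at every place `P | p`
(the places over `p` are conjugate, helper29 `PlaceConj`), hence the frozen `IsOrdinaryAt p` of a
flat `k[ε]`-lift needs the hypothesis at a single place only.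
-/

open scoped Pointwise

namespace Fermat.Agent.GP.Flat.ConnEt

open Fermat.Agent.S53_helper35 Fermat.Agent.GP.Tan.Cocycle Matrix

section Conj

variable {k : Type} [Field k]

/-- The shape `(I_A - 1) k² ⊂ k w₀`, `≠ 0` is transported to every place over the same prime. -/
theorem shape_of_shape_at_one (rbar : GQ →* Matrix (Fin 2) (Fin 2) k) {p : ℕ} (hp : p.Prime)
    (A : ValuationSubring (AlgebraicClosure ℚ)) (hA : A.LiesOverPrime p) (w₀ : Fin 2 → k)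
    (hw₀ : ∀ σ ∈ A.inertiaSubgroupIn ℚ, ∀ w : Fin 2 → k, ∃ c : k,
      (rbar σ).mulVec w - w = c • w₀)
    (hne : ∃ σ₀ ∈ A.inertiaSubgroupIn ℚ, ∃ w : Fin 2 → k, (rbar σ₀).mulVec w - w ≠ 0)
    (P : ValuationSubring (AlgebraicClosure ℚ)) (hP : P.LiesOverPrime p) :
    ∃ w₀' : Fin 2 → k,
      (∀ σ ∈ P.inertiaSubgroupIn ℚ, ∀ w : Fin 2 → k, ∃ c : k,
        (rbar σ).mulVec w - w = c • w₀') ∧
      ∃ σ₀ ∈ P.inertiaSubgroupIn ℚ, ∃ w : Fin 2 → k, (rbar σ₀).mulVec w - w ≠ 0 := by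
  obtain ⟨τ, rfl⟩ := Fermat.Agent.GP.Loc.PlaceConj.exists_smul_eq_of_liesOverPrime hp A P hA hP
  have hττ : rbar τ⁻¹ * rbar τ = 1 := by rw [← map_mul, inv_mul_cancel, map_one]
  have hττ' : rbar τ * rbar τ⁻¹ = 1 := by rw [← map_mul, mul_inv_cancel, map_one]
  -- the conjugation formula
  have hconj : ∀ (σ : GQ) (w : Fin 2 → k),
      (rbar (τ * σ * τ⁻¹)).mulVec w - w =
        (rbar τ).mulVec ((rbar σ).mulVec ((rbar τ⁻¹).mulVec w) - (rbar τ⁻¹).mulVec w) := by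
    intro σ w
    rw [Matrix.mulVec_sub, Matrix.mulVec_mulVec, Matrix.mulVec_mulVec, Matrix.mulVec_mulVec,
      hττ', Matrix.one_mulVec, map_mul, map_mul, Matrix.mul_assoc]
  refine ⟨(rbar τ).mulVec w₀, ?_, ?_⟩
  · intro σ' hσ' w
    -- `σ' = τ σ τ⁻¹` with `σ ∈ I_A`
    have hσ : τ⁻¹ * σ' * τ ∈ A.inertiaSubgroupIn ℚ := by
      have := Fermat.Agent.GC.C0.conj_mem_inertiaSubgroupIn τ⁻¹ hσ'
      rwa [inv_inv, inv_smul_smul] at this
    obtain ⟨c, hc⟩ := hw₀ _ hσ ((rbar τ⁻¹).mulVec w)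
    refine ⟨c, ?_⟩
    have h1 : σ' = τ * (τ⁻¹ * σ' * τ) * τ⁻¹ := by group
    rw [h1, hconj, hc, Matrix.mulVec_smul]
  · obtain ⟨σ₀, hσ₀, w, hw⟩ := hne
    refine ⟨τ * σ₀ * τ⁻¹, Fermat.Agent.GC.C0.conj_mem_inertiaSubgroupIn τ hσ₀,
      (rbar τ).mulVec w, ?_⟩
    have hback : ∀ v : Fin 2 → k, (rbar τ⁻¹).mulVec ((rbar τ).mulVec v) = v := by
      intro v
      rw [Matrix.mulVec_mulVec, hττ, Matrix.one_mulVec]
    rw [hconj, hback]
    intro h0
    apply hw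
    have := congrArg (fun v => (rbar τ⁻¹).mulVec v) h0
    simpa only [hback, Matrix.mulVec_zero] using this

/-- **(ORD-SHAPE), matrix form, hypothesis at one place.** -/
theorem isOrdinaryAt_ofMat_of_isFlatAt_of_one [Finite k] {p : ℕ} (hp : p.Prime) (hp3 : 3 ≤ p)
    [CharP k p] (r : GQ →* Matrix (Fin 2) (Fin 2) (DualNumber k)) (hr : MatCont r)
    (hflat : (ofMat r hr).IsFlatAt p)
    (A : ValuationSubring (AlgebraicClosure ℚ)) (hA : A.LiesOverPrime p) (w₀ : Fin 2 → k)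
    (hw₀ : ∀ σ ∈ A.inertiaSubgroupIn ℚ, ∀ w : Fin 2 → k, ∃ c : k,
      (rfst r σ).mulVec w - w = c • w₀)
    (hne : ∃ σ₀ ∈ A.inertiaSubgroupIn ℚ, ∃ w : Fin 2 → k, (rfst r σ₀).mulVec w - w ≠ 0) :
    (ofMat r hr).IsOrdinaryAt p :=
  isOrdinaryAt_ofMat_of_isFlatAt hp hp3 r hr hflat fun P hP =>
    shape_of_shape_at_one (rfst r) hp A hA w₀ hw₀ hne P hP

end Conj

end Fermat.Agent.GP.Flat.ConnEt
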