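import Mathlib
import Fermat.Agent.GP.Flat.ConnEt.OrdShapeConj
import Fermat.Agent.GP.Flat.OrdLocal

set_option autoImplicit false

/-!
# GP / Flat / ConnEt : plug of (ORD-SHAPE) into helper47's ordinary-flat local condition

`exists_mem_ZB_of_flat` = helper47's `OrdLocal.exists_mem_ZB_of_ordinary` with the binder
`hord : (ofMat t ht).IsOrdinaryAt p` replaced by flatness of the lift and the residual shape
`(I_P - 1) k² = k · (first column of g)` at the ONE place `P`.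
-/

namespace Fermat.Agent.GP.Flat.ConnEt

open Matrix Fermat.Agent.S53_helper35 Fermat.Agent.GP.Tan.Cocycle
  Fermat.Agent.GP.Loc.StrictOrdDim Fermat.Agent.GP.Flat.OrdCount Fermat.Agent.GP.Flat.OrdCocycle
  Fermat.Agent.GP.Flat.OrdLocal

section Plug

variable {k : Type} [Field k]

theorem gcol_zero_ne_zero (g : GL (Fin 2) k) : gcol g 0 ≠ 0 := by
  intro h
  rw [gcol_eq_mulVec] at h
  have h1 : ((g⁻¹ : GL (Fin 2) k) : Matrix (Fin 2) (Fin 2) k).mulVec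
      ((g : Matrix (Fin 2) (Fin 2) k).mulVec (Pi.single 0 1)) = 0 := by
    rw [h, Matrix.mulVec_zero]
  rw [Matrix.mulVec_mulVec, ← Units.val_mul, inv_mul_cancel, Units.val_one,
    Matrix.one_mulVec] at h1
  have := congrFun h1 0
  simp at this

/-- **The tangent cocycle of a FLAT lift with ordinary residual shape lies in the ordinary-flat
local condition.** -/
theorem exists_mem_ZB_of_flat [Finite k] {p : ℕ} [CharP k p] (hp : p.Prime) (hp3 : 3 ≤ p)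
    (P : ValuationSubring (AlgebraicClosure ℚ)) (g : GL (Fin 2) k) (h2 : (2 : k) ≠ 0)
    (t : GQ →* Matrix (Fin 2) (Fin 2) (DualNumber k)) (ht : MatCont t)
    (hflat : (ofMat t ht).IsFlatAt p)
    (htr : ∀ σ, Matrix.trace (tanCocycle t σ) = 0)
    (hP : P.LiesOverPrime p)
    (hline : ∀ σ ∈ P.inertiaSubgroupIn ℚ, ∀ w : Fin 2 → k, ∃ c : k,
      (rfst t σ).mulVec w - w = c • gcol g 0)
    (hg : ∃ σ₀ ∈ P.inertiaSubgroupIn ℚ, ∃ w₀ : Fin 2 → k,
      (rfst t σ₀).mulVec w₀ - w₀ = gcol g 0)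
    (hpeu : ∀ τ ∈ peuSub P p, t τ = 1) :
    (∀ σ : DP P, conjBy g (rD P (rfst t)) σ 1 0 = 0) ∧
    (∀ σ : DP P, (σ : GQ) ∈ P.inertiaSubgroupIn ℚ → conjBy g (rD P (rfst t)) σ 1 1 = 1) ∧
    ∃ (X : Matrix (Fin 2) (Fin 2) k) (x : (DP P → k) × (DP P → k)), X.trace = 0 ∧
      x ∈ ZB P p (rfst t) g ∧
      ∀ σ : DP P, tanCocycle t (σ : GQ) = bval g x σ + cob (rD P (rfst t)) X σ := by
  have hne : ∃ σ₀ ∈ P.inertiaSubgroupIn ℚ, ∃ w : Fin 2 → k, (rfst t σ₀).mulVec w - w ≠ 0 := by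
    obtain ⟨σ₀, hσ₀, w₀, hw₀⟩ := hg
    exact ⟨σ₀, hσ₀, w₀, by rw [hw₀]; exact gcol_zero_ne_zero g⟩
  have hord : (ofMat t ht).IsOrdinaryAt p :=
    isOrdinaryAt_ofMat_of_isFlatAt_of_one hp hp3 t ht hflat P hP (gcol g 0) hline hne
  exact exists_mem_ZB_of_ordinary P p g h2 t ht hord htr hP hg hpeu

end Plug

end Fermat.Agent.GP.Flat.ConnEt
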